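import Fermat.Agent.DSD.Bdd

/-!
# Kummer theory of a unit of infinite order
-/

set_option autoImplicit false
set_option linter.unusedSectionVars false
set_option linter.style.haveILetI false

noncomputable section

namespace Fermat.Agent.DSD

open Fermat.Agent.FrobDens IsLocalRing

local notation "Qbar" => AlgebraicClosure ℚ
local notation "GQ" => Qbar ≃ₐ[ℚ] Qbar

/-- elements fixed by `Gal (Qbar / K)` -/
theorem mem_of_fixed (K : IntermediateField ℚ Qbar) (x : Qbar)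
    (h : ∀ σ : GQ, (∀ y ∈ K, σ y = y) → σ x = x) : x ∈ K := by
  haveI := Frob.isGalois_Qbar
  rw [← InfiniteGalois.fixedField_fixingSubgroup K, IntermediateField.mem_fixedField_iff]
  intro σ hσ
  exact h σ fun y hy => (IntermediateField.mem_fixingSubgroup_iff K σ).mp hσ y hy

theorem le_of_pow_le {x c : ℝ} {k : ℕ} (hk : 0 < k) (h : x ^ k ≤ c) : x ≤ max c 1 := by
  by_contra hcon
  push Not at hcon
  have h1 : 1 < x := (le_max_right c 1).trans_lt hcon
  have h2 : c < x := (le_max_left c 1).trans_lt hcon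
  have h3 : x ≤ x ^ k := by
    calc x = x ^ 1 := (pow_one x).symm
      _ ≤ x ^ k := pow_le_pow_right₀ h1.le hk
  linarith

/-- only finitely many primes are bad -/
theorem finite_bad (K : IntermediateField ℚ Qbar) [FiniteDimensional ℚ K] {r : Qbar}
    (hr : IsIntegral ℤ r) (hr0 : r ≠ 0) (hinf : ∀ k : ℕ, 0 < k → r ^ k ≠ 1) :
    ∃ r0 : ℕ, ∀ k : ℕ, k.Prime → r0 < k →
      (∀ β ∈ K, β ^ k ≠ r) ∧ ∀ ζ ∈ K, ¬ IsPrimitiveRoot ζ k := by
  haveI : Algebra.IsAlgebraic ℚ Qbar := AlgebraicClosure.isAlgebraic ℚ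
  let ι : Qbar →+* ℂ := (IsAlgClosed.lift : Qbar →ₐ[ℚ] ℂ).toRingHom
  obtain ⟨c, hc⟩ := exists_bound ι r
  have hT := finite_bdd ι K (max c 1)
  set T := {x : Qbar | x ∈ K ∧ IsIntegral ℤ x ∧ ∀ τ : GQ, ‖ι (τ x)‖ ≤ max c 1} with hTdef
  have hnorm : ∀ k : ℕ, k.Prime → ∀ β ∈ K, β ^ k = r → β ∈ T := by
    intro k hk β hβK hβ
    refine ⟨hβK, IsIntegral.of_pow hk.pos (by rw [hβ]; exact hr), fun τ => ?_⟩
    refine le_of_pow_le hk.pos ?_
    rw [← norm_pow, ← map_pow, ← map_pow, hβ]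
    exact hc τ
  have h1 : {k : ℕ | k.Prime ∧ ∃ β ∈ K, β ^ k = r}.Finite := by
    by_contra hcon
    have hcon' : {k : ℕ | k.Prime ∧ ∃ β ∈ K, β ^ k = r}.Infinite := hcon
    have h2 : ∀ k : ℕ, ∃ β : Qbar, k ∈ {k : ℕ | k.Prime ∧ ∃ β ∈ K, β ^ k = r} →
        β ∈ K ∧ β ^ k = r := by
      intro k
      by_cases hk : k ∈ {k : ℕ | k.Prime ∧ ∃ β ∈ K, β ^ k = r}
      · obtain ⟨-, β, hβ⟩ := id hk
        exact ⟨β, fun _ => hβ⟩
      · exact ⟨0, fun h => absurd h hk⟩
    choose f hf using h2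
    obtain ⟨a, ha, b, hb, hab, he⟩ := hcon'.exists_ne_map_eq_of_mapsTo (f := f) (t := T)
      (fun k hk => hnorm k hk.1 _ (hf k hk).1 (hf k hk).2) hT
    wlog hlt : a < b generalizing a b
    · exact this b hb a ha hab.symm he.symm (lt_of_le_of_ne (not_lt.mp hlt) hab.symm)
    have h3 := (hf a ha).2
    have h4 := (hf b hb).2
    rw [← he] at h4
    have hβ0 : f a ≠ 0 := by
      intro h
      rw [h, zero_pow ha.1.ne_zero] at h3
      exact hr0 h3.symm
    have h5 : f a ^ (b - a) = 1 := by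
      have : f a ^ a * f a ^ (b - a) = f a ^ a * 1 := by
        rw [← pow_add, Nat.add_sub_cancel' hlt.le, h4, mul_one, h3]
      exact mul_left_cancel₀ (pow_ne_zero _ hβ0) this
    refine hinf (b - a) (by omega) ?_
    rw [← h3, ← pow_mul, mul_comm, pow_mul, h5, one_pow]
  have h2 : {k : ℕ | k.Prime ∧ ∃ ζ ∈ K, IsPrimitiveRoot ζ k}.Finite := by
    by_contra hcon
    have hcon' : {k : ℕ | k.Prime ∧ ∃ ζ ∈ K, IsPrimitiveRoot ζ k}.Infinite := hcon
    have h2 : ∀ k : ℕ, ∃ β : Qbar, k ∈ {k : ℕ | k.Prime ∧ ∃ ζ ∈ K, IsPrimitiveRoot ζ k} →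
        β ∈ K ∧ IsPrimitiveRoot β k := by
      intro k
      by_cases hk : k ∈ {k : ℕ | k.Prime ∧ ∃ ζ ∈ K, IsPrimitiveRoot ζ k}
      · obtain ⟨-, β, hβ⟩ := id hk
        exact ⟨β, fun _ => hβ⟩
      · exact ⟨0, fun h => absurd h hk⟩
    choose f hf using h2
    obtain ⟨a, ha, b, hb, hab, he⟩ := hcon'.exists_ne_map_eq_of_mapsTo (f := f) (t := T)
      (fun k hk => by
        obtain ⟨h5, h6⟩ := hf k hk
        refine ⟨h5, IsIntegral.of_pow hk.1.pos (by rw [h6.pow_eq_one]; exact isIntegral_one),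
          fun τ => ?_⟩
        refine le_trans (le_of_pow_le (c := 1) hk.1.pos ?_) (by simp)
        rw [← norm_pow, ← map_pow, ← map_pow, h6.pow_eq_one, map_one, map_one, norm_one]) hT
    have h3 := (hf a ha).2
    have h4 := (hf b hb).2
    rw [← he] at h4
    exact hab (h3.unique h4)
  obtain ⟨r1, hr1⟩ := h1.bddAbove
  obtain ⟨r2, hr2⟩ := h2.bddAbove
  refine ⟨max r1 r2, fun k hk hlt => ⟨fun β hβ h => ?_, fun ζ hζ h => ?_⟩⟩
  · exact absurd (hr1 ⟨hk, β, hβ, h⟩) (not_le.mpr ((le_max_left _ _).trans_lt hlt))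
  · exact absurd (hr2 ⟨hk, ζ, hζ, h⟩) (not_le.mpr ((le_max_right _ _).trans_lt hlt))

/-- Galois acts on roots of unity through an abelian group -/
theorem comm_root {n : ℕ} (hn : 0 < n) (σ τ : GQ) {z : Qbar} (hz : z ^ n = 1) :
    σ (τ z) = τ (σ z) := by
  haveI : NeZero n := ⟨hn.ne'⟩
  obtain ⟨ζ, hζ⟩ := HasEnoughRootsOfUnity.exists_primitiveRoot Qbar n
  obtain ⟨i, -, rfl⟩ := hζ.eq_pow_of_pow_eq_one hz
  have h1 : ∀ σ : GQ, ∃ a : ℕ, σ ζ = ζ ^ a := by
    intro σ
    obtain ⟨a, -, ha⟩ := hζ.eq_pow_of_pow_eq_one (ξ := σ ζ) (by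
      rw [← map_pow, hζ.pow_eq_one, map_one])
    exact ⟨a, ha.symm⟩
  obtain ⟨a, ha⟩ := h1 σ
  obtain ⟨b, hb⟩ := h1 τ
  simp only [map_pow, ha, hb, ← pow_mul]
  congr 1
  ring

/-- **Schinzel's lemma** -/
theorem exists_move (K : IntermediateField ℚ Qbar) {k n : ℕ} (hk : k.Prime)
    (hn : 0 < n) {r β : Qbar} (hrK : r ∈ K) (hr0 : r ≠ 0) (hβ : β ^ k = r)
    (h1 : ∀ β ∈ K, β ^ k ≠ r) (h2 : ∀ ζ ∈ K, ¬ IsPrimitiveRoot ζ k) :
    ∃ σ : GQ, (∀ x ∈ K, σ x = x) ∧ (∀ z : Qbar, z ^ n = 1 → σ z = z) ∧ σ β ≠ β := by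
  by_contra hcon
  push Not at hcon
  haveI : NeZero k := ⟨hk.ne_zero⟩
  obtain ⟨ζ, hζ⟩ := HasEnoughRootsOfUnity.exists_primitiveRoot Qbar k
  have hβ0 : β ≠ 0 := by
    rintro rfl
    rw [zero_pow hk.ne_zero] at hβ
    exact hr0 hβ.symm
  -- commutation
  have hcomm : ∀ σ τ : GQ, (∀ x ∈ K, σ x = x) → (∀ x ∈ K, τ x = x) → σ (τ β) = τ (σ β) := by
    intro σ τ hσ hτ
    have h3 := hcon ((τ * σ)⁻¹ * (σ * τ)) (fun x hx => by
      rw [AlgEquiv.mul_apply, AlgEquiv.mul_apply, hτ x hx, hσ x hx, AlgEquiv.aut_inv,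
        AlgEquiv.symm_apply_eq, AlgEquiv.mul_apply, hσ x hx, hτ x hx]) (fun z hz => by
      rw [AlgEquiv.mul_apply, AlgEquiv.mul_apply, AlgEquiv.aut_inv,
        AlgEquiv.symm_apply_eq, AlgEquiv.mul_apply]
      exact comm_root hn σ τ hz)
    rw [AlgEquiv.mul_apply, AlgEquiv.mul_apply, AlgEquiv.aut_inv,
        AlgEquiv.symm_apply_eq, AlgEquiv.mul_apply] at h3
    exact h3
  -- an element acting nontrivially on the roots of unity
  obtain ⟨σ₀, hσ₀, hσζ⟩ : ∃ σ : GQ, (∀ x ∈ K, σ x = x) ∧ σ ζ ≠ ζ := by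
    by_contra h
    push Not at h
    exact h2 ζ (mem_of_fixed K ζ h) hζ
  obtain ⟨w, hwk, hw⟩ := hζ.eq_pow_of_pow_eq_one (ξ := σ₀ ζ) (by
    rw [← map_pow, hζ.pow_eq_one, map_one])
  have hw1 : w ≠ 1 := by
    rintro rfl
    rw [pow_one] at hw
    exact hσζ hw.symm
  have hw0 : w ≠ 0 := by
    rintro rfl
    rw [pow_zero] at hw
    have h3 : ζ = 1 := σ₀.injective (by rw [← hw, map_one])
    rw [h3] at hζ
    exact hk.one_lt.ne' (hζ.unique IsPrimitiveRoot.one)
  have hpow : ∀ z : Qbar, z ^ k = 1 → σ₀ z = z ^ w := by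
    intro z hz
    obtain ⟨i, -, rfl⟩ := hζ.eq_pow_of_pow_eq_one hz
    rw [map_pow, ← hw, ← pow_mul, ← pow_mul, mul_comm]
  obtain ⟨v, -, hv⟩ := Nat.exists_mul_mod_eq_one_of_coprime (n := w - 1) (k := k)
    (((Nat.Prime.coprime_iff_not_dvd hk).mpr (fun h => by
      have := Nat.le_of_dvd (by omega) h
      omega)).symm) hk.one_lt
  have hpowv : ∀ z : Qbar, z ^ k = 1 → z ^ ((w - 1) * v) = z := by
    intro z hz
    rw [pow_eq_pow_mod _ hz, hv, pow_one]
  set u : GQ → Qbar := fun τ => τ β / β with hu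
  have hu1 : ∀ τ : GQ, (∀ x ∈ K, τ x = x) → u τ ^ k = 1 := by
    intro τ hτ
    rw [hu]
    simp only
    rw [div_pow, ← map_pow, hβ, hτ r hrK, div_self hr0]
  have hu2 : ∀ τ : GQ, τ β = u τ * β := fun τ => by
    rw [hu]
    simp only
    rw [div_mul_cancel₀ _ hβ0]
  have hu0 : ∀ τ : GQ, u τ ≠ 0 := fun τ => div_ne_zero ((map_ne_zero τ).mpr hβ0) hβ0
  refine h1 ((u σ₀ ^ v)⁻¹ * β) (mem_of_fixed K _ fun τ hτ => ?_) ?_
  · have h3 := hcomm σ₀ τ hσ₀ hτ
    rw [hu2 τ, hu2 σ₀, map_mul, map_mul, hu2 τ, hu2 σ₀, hpow _ (hu1 τ hτ)] at h3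
    have h4 : u τ ^ (w - 1) * u σ₀ = τ (u σ₀) := by
      have e1 : u τ ^ w = u τ ^ (w - 1) * u τ := by
        rw [← pow_succ]
        congr 1
        omega
      rw [e1] at h3
      have h5 : (u τ ^ (w - 1) * u σ₀) * (u τ * β) = τ (u σ₀) * (u τ * β) := by
        rw [← h3]; ring
      exact mul_right_cancel₀ (mul_ne_zero (hu0 τ) hβ0) h5
    have h6 : u τ * u σ₀ ^ v = τ (u σ₀ ^ v) := by
      rw [map_pow, ← h4, mul_pow, ← pow_mul, hpowv _ (hu1 τ hτ)]
    rw [map_mul, map_inv₀, ← h6, hu2 τ]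
    have h7 := hu0 τ
    have h8 := hu0 σ₀
    field_simp
  · rw [mul_pow, hβ, inv_pow, ← pow_mul, mul_comm v k, pow_mul, hu1 σ₀ hσ₀, one_pow, inv_one,
      one_mul]

/-- moving all the roots at once -/
theorem exists_move_all (K : IntermediateField ℚ Qbar) {n : ℕ} (P : Finset ℕ)
    (hP : ∀ k ∈ P, k.Prime) (hn : n = ∏ k ∈ P, k) {r : Qbar} (hrK : r ∈ K) (hr0 : r ≠ 0)
    (β : ℕ → Qbar) (hβ : ∀ k ∈ P, β k ^ k = r)
    (h1 : ∀ k ∈ P, ∀ β ∈ K, β ^ k ≠ r) (h2 : ∀ k ∈ P, ∀ ζ ∈ K, ¬ IsPrimitiveRoot ζ k) :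
    ∃ σ : GQ, (∀ x ∈ K, σ x = x) ∧ (∀ z : Qbar, z ^ n = 1 → σ z = z) ∧
      ∀ k ∈ P, σ (β k) ≠ β k := by
  classical
  have hn0 : 0 < n := by rw [hn]; exact Finset.prod_pos fun k hk => (hP k hk).pos
  have hdvd : ∀ k ∈ P, k ∣ n := fun k hk => hn ▸ Finset.dvd_prod_of_mem _ hk
  have hβ0 : ∀ k ∈ P, β k ≠ 0 := by
    intro k hk h
    have := hβ k hk
    rw [h, zero_pow (hP k hk).ne_zero] at this
    exact hr0 this.symm
  have key : ∀ Q ⊆ P, ∃ σ : GQ, (∀ x ∈ K, σ x = x) ∧ (∀ z : Qbar, z ^ n = 1 → σ z = z) ∧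
      ∀ k ∈ Q, σ (β k) ≠ β k := by
    intro Q
    induction Q using Finset.induction with
    | empty =>
      intro _
      exact ⟨1, fun x _ => rfl, fun z _ => rfl, fun k hk => absurd hk (Finset.notMem_empty k)⟩
    | insert a s ha ih =>
      intro hs
      obtain ⟨σ, hσ1, hσ2, hσ3⟩ := ih fun k hk => hs (Finset.mem_insert_of_mem hk)
      have haP : a ∈ P := hs (Finset.mem_insert_self a s)
      by_cases hσa : σ (β a) = β a
      · obtain ⟨τ, hτ1, hτ2, hτ3⟩ := exists_move K (hP a haP) hn0 hrK hr0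
          (hβ a haP) (h1 a haP) (h2 a haP)
        -- action of powers of `τ`
        have hpow : ∀ k ∈ P, ∃ z : Qbar, z ^ k = 1 ∧ ∀ j : ℕ, (τ ^ j) (β k) = z ^ j * β k := by
          intro k hk
          have hz : (τ (β k) / β k) ^ k = 1 := by
            rw [div_pow, ← map_pow, hβ k hk, hτ1 r hrK, div_self hr0]
          refine ⟨τ (β k) / β k, hz, fun j => ?_⟩
          have hτz : τ (τ (β k) / β k) = τ (β k) / β k := hτ2 _ (by
            obtain ⟨d, hd⟩ := hdvd k hk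
            rw [hd, pow_mul, hz, one_pow])
          induction j with
          | zero => simp
          | succ j ihj =>
            rw [pow_succ', AlgEquiv.mul_apply, ihj, map_mul, map_pow, hτz, pow_succ, mul_assoc,
              div_mul_cancel₀ _ (hβ0 k hk)]
        refine ⟨σ * τ ^ (n / a), fun x hx => ?_, fun z hz => ?_, fun k hk => ?_⟩
        · rw [AlgEquiv.mul_apply]
          have : ∀ j : ℕ, (τ ^ j) x = x := by
            intro j
            induction j with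
            | zero => rfl
            | succ j ihj => rw [pow_succ', AlgEquiv.mul_apply, ihj, hτ1 x hx]
          rw [this, hσ1 x hx]
        · rw [AlgEquiv.mul_apply]
          have : ∀ j : ℕ, (τ ^ j) z = z := by
            intro j
            induction j with
            | zero => rfl
            | succ j ihj => rw [pow_succ', AlgEquiv.mul_apply, ihj, hτ2 z hz]
          rw [this, hσ2 z hz]
        · rcases Finset.mem_insert.mp hk with rfl | hk
          · obtain ⟨z, hz1, hz2⟩ := hpow k haP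
            rw [AlgEquiv.mul_apply, hz2, map_mul, hσa, map_pow]
            have hσz : σ z = z := hσ2 z (by
              obtain ⟨d, hd⟩ := hdvd k haP
              rw [hd, pow_mul, hz1, one_pow])
            rw [hσz]
            intro h
            have hz3 : z ^ (n / k) = 1 := mul_right_cancel₀ (hβ0 k haP) (by rw [h, one_mul])
            have hcop : Nat.Coprime k (n / k) := by
              rw [Nat.Prime.coprime_iff_not_dvd (hP k haP)]
              intro hd
              have e : n / k = ∏ j ∈ P.erase k, j := by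
                rw [hn, ← Finset.mul_prod_erase P _ haP, Nat.mul_div_cancel_left _ (hP k haP).pos]
              rw [e, (hP k haP).prime.dvd_finsetProd_iff] at hd
              obtain ⟨j, hj, hd⟩ := hd
              have hj' := Finset.mem_erase.mp hj
              exact hj'.1 ((Nat.prime_dvd_prime_iff_eq (hP k haP) (hP j hj'.2)).mp hd).symm
            have hz4 : z = 1 := by
              have h5 : orderOf z ∣ Nat.gcd k (n / k) :=
                Nat.dvd_gcd (orderOf_dvd_of_pow_eq_one hz1) (orderOf_dvd_of_pow_eq_one hz3)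
              rw [hcop] at h5
              exact orderOf_eq_one_iff.mp (Nat.dvd_one.mp h5)
            have := hz2 1
            rw [pow_one, pow_one, hz4, one_mul] at this
            exact hτ3 this
          · obtain ⟨z, hz1, hz2⟩ := hpow k (hs (Finset.mem_insert_of_mem hk))
            have hz3 : z ^ (n / a) = 1 := by
              have hka : k ≠ a := fun e => ha (e ▸ hk)
              have hd : k ∣ n / a := by
                have e : n / a = ∏ j ∈ P.erase a, j := by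
                  rw [hn, ← Finset.mul_prod_erase P _ haP,
                    Nat.mul_div_cancel_left _ (hP a haP).pos]
                rw [e]
                exact Finset.dvd_prod_of_mem _ (Finset.mem_erase.mpr
                  ⟨hka, hs (Finset.mem_insert_of_mem hk)⟩)
              obtain ⟨d, hd⟩ := hd
              rw [hd, pow_mul, hz1, one_pow]
            rw [AlgEquiv.mul_apply, hz2, hz3, one_mul]
            exact hσ3 k hk
      · refine ⟨σ, hσ1, hσ2, fun k hk => ?_⟩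
        rcases Finset.mem_insert.mp hk with rfl | hk
        · exact hσa
        · exact hσ3 k hk
  exact key P subset_rfl

/-- roots of unity of order prime to the residue characteristic inject -/
theorem root_eq_one (A : ValuationSubring Qbar) {z : A} {n : ℕ} (hz : z ^ n = 1)
    (hn : (n : ResidueField A) ≠ 0) (h : residue A z = 1) : z = 1 := by
  by_contra hne
  have h1 : (∑ i ∈ Finset.range n, z ^ i) * (z - 1) = 0 := by
    rw [geom_sum_mul, hz, sub_self]
  rcases mul_eq_zero.mp h1 with h2 | h2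
  · refine hn ?_
    have := congrArg (residue A) h2
    rw [map_sum, map_zero] at this
    simp only [map_pow, h, one_pow, Finset.sum_const, Finset.card_range, nsmul_eq_mul,
      mul_one] at this
    exact this
  · exact hne (sub_eq_zero.mp h2)

/-- **Kummer theory**: primes where the ratio has an image with large order -/
theorem kummer {r : Qbar} (hr : IsIntegral ℤ r) (hr' : IsIntegral ℤ r⁻¹) (hr0 : r ≠ 0)
    (hinf : ∀ k : ℕ, 0 < k → r ^ k ≠ 1) {δ : ℝ} (hδ : 0 < δ) (b : ℕ) :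
    ∃ n : ℕ, 1 < n ∧ 2 * (n.totient : ℝ) < δ * n ∧ ∃ ℓ : ℕ, ℓ.Prime ∧ b ≤ ℓ ∧ n ∣ ℓ - 1 ∧
      ∃ A : ValuationSubring Qbar, A.LiesOverPrime ℓ ∧ ∃ h : r ∈ A,
        IsPrimitiveRoot (residue A ⟨r, h⟩ ^ ((ℓ - 1) / n)) n := by
  classical
  haveI : Algebra.IsAlgebraic ℚ Qbar := AlgebraicClosure.isAlgebraic ℚ
  set K : IntermediateField ℚ Qbar := IntermediateField.adjoin ℚ {r} with hK
  haveI : FiniteDimensional ℚ K := IntermediateField.adjoin.finiteDimensional
    (Algebra.IsAlgebraic.isAlgebraic r).isIntegral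
  have hrK : r ∈ K := IntermediateField.subset_adjoin ℚ {r} rfl
  obtain ⟨r0, hbad⟩ := finite_bad K hr hr0 hinf
  obtain ⟨P, hP, hPr, hP1, hPδ⟩ := exists_primes hδ r0
  set n := ∏ k ∈ P, k with hn
  have hn0 : 0 < n := by omega
  have hdvd : ∀ k ∈ P, k ∣ n := fun k hk => hn ▸ Finset.dvd_prod_of_mem _ hk
  -- the roots
  have hex : ∀ k : ℕ, ∃ β : Qbar, 0 < k → β ^ k = r := by
    intro k
    by_cases hk : 0 < k
    · obtain ⟨β, hβ⟩ := IsAlgClosed.exists_pow_nat_eq r hk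
      exact ⟨β, fun _ => hβ⟩
    · exact ⟨0, fun h => absurd h hk⟩
  choose β hβ' using hex
  have hβ : ∀ k ∈ P, β k ^ k = r := fun k hk => hβ' k (hP k hk).pos
  obtain ⟨σ, hσ1, hσ2, hσ3⟩ := exists_move_all K P hP hn hrK hr0 β hβ
    (fun k hk => (hbad k (hP k hk) (hPr k hk)).1) (fun k hk => (hbad k (hP k hk) (hPr k hk)).2)
  haveI : NeZero n := ⟨hn0.ne'⟩
  obtain ⟨ζ, hζ⟩ := HasEnoughRootsOfUnity.exists_primitiveRoot Qbar n
  set X : Set Qbar := insert r (insert ζ ((P.image β : Finset Qbar) : Set Qbar)) with hX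
  haveI : FiniteDimensional ℚ (IntermediateField.adjoin ℚ X) := by
    haveI : Finite X := by
      rw [Set.finite_coe_iff]
      exact (((P.image β).finite_toSet.insert ζ).insert r)
    exact IntermediateField.finiteDimensional_adjoin fun x _ =>
      (Algebra.IsAlgebraic.isAlgebraic x).isIntegral
  obtain ⟨ℓ, hℓ, hℓS, A, hA, τ, hτ, m₁, m₂, hm₁, hm₂⟩ := exists_frobenius
    (IntermediateField.adjoin ℚ X) (Set.Iio b ∪ (n.primeFactors : Set ℕ))
    ((Set.finite_Iio b).union (Finset.finite_toSet _)) σ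
  have hℓb : b ≤ ℓ := by
    by_contra h
    exact hℓS (Or.inl (not_le.mp h))
  have hℓn : ¬ ℓ ∣ n := fun h => hℓS (Or.inr (by
    simp only [Finset.mem_coe, Nat.mem_primeFactors]
    exact ⟨hℓ, h, hn0.ne'⟩))
  have hfix : ∀ x ∈ X, σ x = x → τ x = x := by
    intro x hx h
    rw [← hm₂ x (IntermediateField.subset_adjoin ℚ X hx)]
    clear hm₂
    induction m₂ with
    | zero => rfl
    | succ j ih => rw [pow_succ, AlgEquiv.mul_apply, h, ih]
  have hmove : ∀ x ∈ X, τ x = x → σ x = x := by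
    intro x hx h
    rw [← hm₁ x (IntermediateField.subset_adjoin ℚ X hx)]
    clear hm₁
    induction m₁ with
    | zero => rfl
    | succ j ih => rw [pow_succ, AlgEquiv.mul_apply, h, ih]
  have hτr : τ r = r := hfix r (by simp [hX]) (hσ1 r hrK)
  have hτζ : τ ζ = ζ := hfix ζ (by simp [hX]) (hσ2 ζ hζ.pow_eq_one)
  have hτβ : ∀ k ∈ P, τ (β k) ≠ β k := fun k hk h => hσ3 k hk (hmove _ (by
    rw [hX]
    refine Set.mem_insert_of_mem _ (Set.mem_insert_of_mem _ ?_)
    exact Finset.mem_coe.mpr (Finset.mem_image_of_mem _ hk)) h)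
  haveI : CharP (ResidueField A) ℓ := charP_residueField A hℓ hA
  have hcast : ∀ d : ℕ, d ∣ n → (d : ResidueField A) ≠ 0 := by
    intro d hd h
    rw [CharP.cast_eq_zero_iff (ResidueField A) ℓ] at h
    exact hℓn (h.trans hd)
  -- Frobenius in the residue field
  have hfr : ∀ (x : Qbar) (hx : x ∈ A) (hx' : τ x ∈ A),
      residue A ⟨τ x, hx'⟩ = residue A ⟨x, hx⟩ ^ ℓ := by
    intro x hx hx'
    rw [← map_pow, residue_eq_iff]
    exact (isFrobeniusAt_iff.mp hτ).2 x hx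
  have hrA : r ∈ A := Frob.mem_of_isIntegral A hr
  have hrA' : r⁻¹ ∈ A := Frob.mem_of_isIntegral A hr'
  have hζA : ζ ∈ A := Frob.mem_of_isIntegral A (IsIntegral.of_pow hn0 (by
    rw [hζ.pow_eq_one]; exact isIntegral_one))
  have hunit : ∀ (x : Qbar) (hx : x ∈ A) (hx' : x⁻¹ ∈ A), x ≠ 0 → residue A ⟨x, hx⟩ ≠ 0 := by
    intro x hx hx' hx0 h
    have h1 : (⟨x, hx⟩ : A) * ⟨x⁻¹, hx'⟩ = 1 := Subtype.ext (mul_inv_cancel₀ hx0)
    have h2 := congrArg (residue A) h1
    rw [map_mul, h, zero_mul, map_one] at h2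
    exact zero_ne_one h2
  have hℓ1 : ℓ = (ℓ - 1) + 1 := by have := hℓ.pos; omega
  have hfix1 : ∀ (x : Qbar) (hx : x ∈ A), residue A ⟨x, hx⟩ ≠ 0 → τ x = x →
      residue A ⟨x, hx⟩ ^ (ℓ - 1) = 1 := by
    intro x hx h0 h
    have h1 := hfr x hx (by rw [h]; exact hx)
    have h2 : residue A ⟨τ x, by rw [h]; exact hx⟩ = residue A ⟨x, hx⟩ := by
      congr 2
    rw [h2] at h1
    have h3 : residue A ⟨x, hx⟩ ^ (ℓ - 1) * residue A ⟨x, hx⟩ = 1 * residue A ⟨x, hx⟩ := by
      rw [← pow_succ, ← hℓ1, one_mul]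
      exact h1.symm
    exact mul_right_cancel₀ h0 h3
  -- `n ∣ ℓ - 1`
  have hndvd : n ∣ ℓ - 1 := by
    rw [← hζ.pow_eq_one_iff_dvd]
    have h1 : (⟨ζ, hζA⟩ : A) ^ (ℓ - 1) = 1 := by
      refine root_eq_one A (n := n) ?_ (hcast n dvd_rfl) ?_
      · rw [← pow_mul, mul_comm, pow_mul]
        have : (⟨ζ, hζA⟩ : A) ^ n = 1 := Subtype.ext hζ.pow_eq_one
        rw [this, one_pow]
      · rw [map_pow]
        refine hfix1 ζ hζA ?_ hτζ
        refine hunit ζ hζA (Frob.mem_of_isIntegral A (IsIntegral.of_pow hn0 ?_)) (hζ.ne_zero hn0.ne')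
        rw [inv_pow, hζ.pow_eq_one, inv_one]
        exact isIntegral_one
    exact congrArg Subtype.val h1
  refine ⟨n, hP1, hPδ, ℓ, hℓ, hℓb, hndvd, A, hA, hrA, ?_⟩
  have hr1 : residue A ⟨r, hrA⟩ ^ (ℓ - 1) = 1 :=
    hfix1 r hrA (hunit r hrA hrA' hr0) hτr
  rw [IsPrimitiveRoot.iff_orderOf]
  refine orderOf_eq_of_pow_and_pow_div_prime hn0 ?_ fun k hk hkn => ?_
  · rw [← pow_mul, Nat.div_mul_cancel hndvd, hr1]
  · have hkP : k ∈ P := by
      rw [hn, hk.prime.dvd_finsetProd_iff] at hkn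
      obtain ⟨j, hj, hd⟩ := hkn
      rwa [(Nat.prime_dvd_prime_iff_eq hk (hP j hj)).mp hd]
    have hkd := hdvd k hkP
    have e : (ℓ - 1) / n * (n / k) = (ℓ - 1) / k := by
      obtain ⟨d, hd⟩ := hkd
      obtain ⟨c, hc⟩ := hndvd
      rw [hc, Nat.mul_div_cancel_left _ hn0, hd, Nat.mul_div_cancel_left _ hk.pos, mul_assoc,
        Nat.mul_div_cancel_left _ hk.pos, mul_comm]
    rw [← pow_mul, e]
    -- the root
    have hβi : IsIntegral ℤ (β k) := IsIntegral.of_pow hk.pos (by rw [hβ k hkP]; exact hr)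
    have hβi' : IsIntegral ℤ (β k)⁻¹ := IsIntegral.of_pow hk.pos (by
      rw [inv_pow, hβ k hkP]; exact hr')
    have hβA := Frob.mem_of_isIntegral A hβi
    have hβA' := Frob.mem_of_isIntegral A hβi'
    have hβ0 : β k ≠ 0 := by
      intro h
      have := hβ k hkP
      rw [h, zero_pow hk.ne_zero] at this
      exact hr0 this.symm
    have hres0 := hunit (β k) hβA hβA' hβ0
    set z : Qbar := τ (β k) / β k with hz
    have hzk : z ^ k = 1 := by
      rw [hz, div_pow, ← map_pow, hβ k hkP, hτr, div_self hr0]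
    have hzA : z ∈ A := Frob.mem_of_isIntegral A (IsIntegral.of_pow hk.pos (by
      rw [hzk]; exact isIntegral_one))
    have hz1 : (⟨z, hzA⟩ : A) ≠ 1 := by
      intro h
      have h1 : z = 1 := congrArg Subtype.val h
      rw [hz, div_eq_one_iff_eq hβ0] at h1
      exact hτβ k hkP h1
    have hres1 : residue A ⟨z, hzA⟩ ≠ 1 := fun h => hz1 (root_eq_one A (n := k)
      (Subtype.ext hzk) (hcast k hkd) h)
    have hτA : τ (β k) ∈ A := by
      have : τ (β k) = z * β k := by rw [hz, div_mul_cancel₀ _ hβ0]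
      rw [this]
      exact A.mul_mem _ _ hzA hβA
    have h2 := hfr (β k) hβA hτA
    have h3 : residue A ⟨τ (β k), hτA⟩ = residue A ⟨z, hzA⟩ * residue A ⟨β k, hβA⟩ := by
      rw [← map_mul]
      congr 1
      exact Subtype.ext (by
        show τ (β k) = z * β k
        rw [hz, div_mul_cancel₀ _ hβ0])
    rw [h3, hℓ1, pow_succ] at h2
    have h4 : residue A ⟨z, hzA⟩ = residue A ⟨β k, hβA⟩ ^ (ℓ - 1) := mul_right_cancel₀ hres0 h2
    have h5 : residue A ⟨r, hrA⟩ = residue A ⟨β k, hβA⟩ ^ k := by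
      rw [← map_pow]
      congr 1
      exact Subtype.ext (hβ k hkP).symm
    rw [h5, ← pow_mul, Nat.mul_div_cancel' (hkd.trans hndvd), ← h4]
    exact hres1

end Fermat.Agent.DSD
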