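import Fermat.Agent.DSD.Bnd
import Fermat.Agent.DSD.Kummer
import Fermat.Agent.DS1.Defs
import Fermat.Agent.GoodRed.ValRing

/-!
# Deligne-Serre: the representations have bounded image
-/

set_option autoImplicit false
set_option linter.unusedSectionVars false
set_option linter.style.haveILetI false

noncomputable section

namespace Fermat.Agent.DSD

open Fermat.Agent.FrobDens Fermat.Agent.DS1 IsLocalRing

local notation "Qbar" => AlgebraicClosure ℚ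
local notation "GQ" => Qbar ≃ₐ[ℚ] Qbar

variable {N : ℕ} {ι : Qbar →+* ℂ} {α e : ℕ → Qbar}

/-! ### (a) large values -/

theorem exists_ext (K : IntermediateField ℚ Qbar) (φ : K →ₐ[ℚ] Qbar) :
    ∃ τ : GQ, ∀ x : K, τ x = φ x := by
  haveI : Algebra.IsAlgebraic ℚ Qbar := AlgebraicClosure.isAlgebraic ℚ
  haveI : Algebra.IsAlgebraic K Qbar := Algebra.IsAlgebraic.tower_top (K := ℚ) K
  obtain ⟨ψ, hψ⟩ := IsAlgClosed.surjective_domRestrict_of_isAlgebraic (K := ℚ) (L := K)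
    (M := Qbar) (E := Qbar) φ
  exact ⟨Algebra.IsAlgebraic.algEquivEquivAlgHom ℚ Qbar |>.symm ψ, fun x =>
    DFunLike.congr_fun hψ x⟩

theorem ud_large (h : DSData N ι α e) {η : ℝ} (hη : 0 < η) : ∃ c : ℝ,
    UD {p : Nat.Primes | ¬ (p : ℕ) ∣ N ∧ ∃ τ : GQ, c < ‖ι (τ (α p))‖} η := by
  classical
  obtain ⟨K, hK, hKα⟩ := h.field
  haveI : Fintype (K →ₐ[ℚ] Qbar) := Fintype.ofFinite _
  choose T hT using exists_ext K
  choose C hC using fun φ : K →ₐ[ℚ] Qbar => h.rankin (T φ)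
  set n : ℝ := ((Fintype.card (K →ₐ[ℚ] Qbar) : ℕ) : ℝ) with hn
  set c : ℝ := max 1 (n / η) with hc
  have hc1 : 1 ≤ c := le_max_left _ _
  have hc0 : 0 < c := one_pos.trans_le hc1
  have hcn : n / c ^ 2 ≤ η := by
    have h1 : n / η ≤ c ^ 2 := (le_max_right _ _).trans (by nlinarith)
    rw [div_le_iff₀ hη] at h1
    rw [div_le_iff₀ (by positivity)]
    linarith
  set b : Nat.Primes → ℝ := fun p => ∑ φ : K →ₐ[ℚ] Qbar,
    (c ^ 2)⁻¹ * (if (p : ℕ) ∣ N then 0 else ‖ι (T φ (α p))‖ ^ 2) with hb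
  refine ⟨c, UD.mono (UD.of_le (b := b) (δ := n / c ^ 2)
    (C := ∑ φ : K →ₐ[ℚ] Qbar, (c ^ 2)⁻¹ * C φ) ?_ ?_) hcn⟩
  · intro s hs hs2
    have hsum : ∀ φ : K →ₐ[ℚ] Qbar, Summable (fun p : Nat.Primes => (c ^ 2)⁻¹ *
        ((if (p : ℕ) ∣ N then 0 else ‖ι (T φ (α p))‖ ^ 2) * ((p : ℕ) : ℝ) ^ (-s))) :=
      fun φ => (hC φ s hs hs2).1.mul_left _
    have e1 : (fun p : Nat.Primes => b p * ((p : ℕ) : ℝ) ^ (-s)) = fun p : Nat.Primes =>
        ∑ φ : K →ₐ[ℚ] Qbar, (c ^ 2)⁻¹ *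
        ((if (p : ℕ) ∣ N then 0 else ‖ι (T φ (α p))‖ ^ 2) * ((p : ℕ) : ℝ) ^ (-s)) := by
      funext p
      rw [hb]
      simp only
      rw [Finset.sum_mul]
      exact Finset.sum_congr rfl fun φ _ => by ring
    refine ⟨?_, ?_⟩
    · rw [e1]
      exact summable_sum fun φ _ => hsum φ
    · unfold pser
      rw [e1, Summable.tsum_finsetSum fun φ _ => hsum φ]
      have h1 : ∀ φ : K →ₐ[ℚ] Qbar, ∑' p : Nat.Primes, (c ^ 2)⁻¹ *
          ((if (p : ℕ) ∣ N then 0 else ‖ι (T φ (α p))‖ ^ 2) * ((p : ℕ) : ℝ) ^ (-s)) ≤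
          (c ^ 2)⁻¹ * (-Real.log (s - 1)) + (c ^ 2)⁻¹ * C φ := by
        intro φ
        rw [tsum_mul_left, ← mul_add]
        refine mul_le_mul_of_nonneg_left ?_ (by positivity)
        have := (hC φ s hs hs2).2
        rwa [one_div, Real.log_inv] at this
      refine (Finset.sum_le_sum fun φ _ => h1 φ).trans (le_of_eq ?_)
      rw [Finset.sum_add_distrib, Finset.sum_const, Finset.card_univ, nsmul_eq_mul, ← hn]
      ring
  · intro p
    by_cases hp : p ∈ {p : Nat.Primes | ¬ (p : ℕ) ∣ N ∧ ∃ τ : GQ, c < ‖ι (τ (α p))‖}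
    · unfold ind
      rw [Set.indicator_of_mem hp]
      obtain ⟨hpN, τ, hτ⟩ := hp
      have hαK := (hKα p p.2 hpN).1
      set φ : K →ₐ[ℚ] Qbar := (τ : Qbar →ₐ[ℚ] Qbar).comp K.val with hφ
      have e1 : T φ (α p) = τ (α p) := hT φ ⟨α p, hαK⟩
      have h1 : (c ^ 2)⁻¹ * (if (p : ℕ) ∣ N then 0 else ‖ι (T φ (α p))‖ ^ 2) ≤ b p := by
        rw [hb]
        exact Finset.single_le_sum (f := fun φ : K →ₐ[ℚ] Qbar =>
          (c ^ 2)⁻¹ * (if (p : ℕ) ∣ N then 0 else ‖ι (T φ (α p))‖ ^ 2))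
          (fun φ _ => by split_ifs <;> positivity) (Finset.mem_univ φ)
      refine le_trans ?_ h1
      rw [if_neg hpN, e1, inv_mul_eq_div, le_div_iff₀ (by positivity), one_mul]
      exact pow_le_pow_left₀ hc0.le hτ.le 2
    · unfold ind
      rw [Set.indicator_of_notMem hp]
      rw [hb]
      exact Finset.sum_nonneg fun φ _ => by split_ifs <;> positivity

/-! ### ratios -/

theorem isIntegral_of_quad {t u r : Qbar} (ht : IsIntegral ℤ t) (hu : IsIntegral ℤ u)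
    (h : r ^ 2 - t * r + u = 0) : IsIntegral ℤ r := by
  have h1 : IsIntegral (integralClosure ℤ Qbar) r := by
    refine ⟨Polynomial.X ^ 2 - Polynomial.C ⟨t, ht⟩ * Polynomial.X + Polynomial.C ⟨u, hu⟩,
      by monicity!, ?_⟩
    simp only [Polynomial.eval₂_add, Polynomial.eval₂_sub, Polynomial.eval₂_pow,
      Polynomial.eval₂_X, Polynomial.eval₂_mul, Polynomial.eval₂_C]
    exact h
  exact isIntegral_trans (A := integralClosure ℤ Qbar) r h1

theorem isIntegral_root {u : Qbar} {m : ℕ} (hm : 0 < m) (hu : u ^ m = 1) :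
    IsIntegral ℤ u ∧ IsIntegral ℤ u⁻¹ :=
  ⟨IsIntegral.of_pow hm (by rw [hu]; exact isIntegral_one),
    IsIntegral.of_pow hm (by rw [inv_pow, hu, inv_one]; exact isIntegral_one)⟩

theorem isIntegral_t {a u : Qbar} {m : ℕ} (hm : 0 < m) (ha : IsIntegral ℤ a) (hu : u ^ m = 1) :
    IsIntegral ℤ (a ^ 2 / u - 2) := by
  rw [div_eq_mul_inv]
  exact ((ha.pow 2).mul (isIntegral_root hm hu).2).sub (isIntegral_algebraMap (x := (2 : ℤ)))

theorem root_inv {F : Type*} [Field F] {t r : F} (h : r ^ 2 - t * r + 1 = 0) :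
    r ≠ 0 ∧ r⁻¹ ^ 2 - t * r⁻¹ + 1 = 0 := by
  have h0 : r ≠ 0 := by
    rintro rfl
    simp at h
  refine ⟨h0, ?_⟩
  field_simp
  linear_combination h

theorem root_eq_or {F : Type*} [Field F] {t r s : F} (h : r ^ 2 - t * r + 1 = 0)
    (h' : s ^ 2 - t * s + 1 = 0) : s = r ∨ s = r⁻¹ := by
  have h0 := (root_inv h).1
  have e : t = r + r⁻¹ := by
    field_simp
    linear_combination -h
  rw [e] at h'
  have h1 : (s - r) * (s - r⁻¹) = 0 := by
    field_simp at h' ⊢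
    linear_combination h'
  rcases mul_eq_zero.mp h1 with h | h
  · exact Or.inl (sub_eq_zero.mp h)
  · exact Or.inr (sub_eq_zero.mp h)

theorem unit_residue {A : ValuationSubring Qbar} {x : Qbar} (hx : x ∈ A) (hx' : x⁻¹ ∈ A)
    (hx0 : x ≠ 0) : residue A ⟨x, hx⟩ ≠ 0 := by
  intro h
  have h1 : (⟨x, hx⟩ : A) * ⟨x⁻¹, hx'⟩ = 1 := Subtype.ext (mul_inv_cancel₀ hx0)
  have h2 := congrArg (residue A) h1
  rw [map_mul, h, zero_mul, map_one] at h2
  exact zero_ne_one h2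

theorem residue_ratio {A : ValuationSubring Qbar} {a u r : Qbar} (ha : a ∈ A) (hu : u ∈ A)
    (hr : r ∈ A) (hu0 : u ≠ 0) (hu1 : residue A ⟨u, hu⟩ ≠ 0)
    (h : r ^ 2 - (a ^ 2 / u - 2) * r + 1 = 0) :
    residue A ⟨r, hr⟩ ^ 2 - (residue A ⟨a, ha⟩ ^ 2 / residue A ⟨u, hu⟩ - 2) *
      residue A ⟨r, hr⟩ + 1 = 0 := by
  have h1 : u * r ^ 2 - (a ^ 2 - 2 * u) * r + u = 0 := by
    field_simp at h
    linear_combination h
  have h2 : (⟨u, hu⟩ : A) * ⟨r, hr⟩ ^ 2 - ((⟨a, ha⟩ : A) ^ 2 - 2 * ⟨u, hu⟩) * ⟨r, hr⟩ +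
      ⟨u, hu⟩ = 0 := Subtype.ext h1
  have h3 := congrArg (residue A) h2
  simp only [map_add, map_sub, map_mul, map_pow, map_ofNat, map_zero] at h3
  field_simp
  linear_combination h3

/-! ### the representations -/

/-- the data at a place -/
theorem range_facts {A : ValuationSubring Qbar} {ℓ : ℕ} {ρ : GQ →* GL (Fin 2) (ResidueField A)}
    (hρ : IsRepAt N α e ℓ A ρ) : Finite ρ.range ∧ Function.Surjective ρ.rangeRestrict ∧
      (∃ L : IntermediateField ℚ Qbar, FiniteDimensional ℚ L ∧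
      ∀ σ : GQ, (∀ x ∈ L, σ x = x) → ρ.rangeRestrict σ = 1) := by
  obtain ⟨⟨L, hL, hL'⟩, -⟩ := hρ
  haveI := hL
  refine ⟨?_, ρ.rangeRestrict_surjective, L, hL, fun σ hσ => Subtype.ext (hL' σ hσ)⟩
  -- finiteness
  have h1 : ∀ σ τ : GQ, (σ : Qbar →ₐ[ℚ] Qbar).comp L.val = (τ : Qbar →ₐ[ℚ] Qbar).comp L.val →
      ρ σ = ρ τ := by
    intro σ τ hστ
    have h2 : ρ (τ⁻¹ * σ) = 1 := by
      refine hL' _ fun x hx => ?_
      have h3 : σ x = τ x := DFunLike.congr_fun hστ ⟨x, hx⟩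
      rw [AlgEquiv.mul_apply, h3, AlgEquiv.aut_inv, AlgEquiv.symm_apply_apply]
    rw [map_mul, map_inv, inv_mul_eq_one] at h2
    exact h2.symm
  choose T hT using exists_ext L
  have h4 : (ρ.range : Set (GL (Fin 2) (ResidueField A))) ⊆
      Set.range (fun φ : L →ₐ[ℚ] Qbar => ρ (T φ)) := by
    rintro _ ⟨σ, rfl⟩
    refine ⟨(σ : Qbar →ₐ[ℚ] Qbar).comp L.val, h1 _ _ ?_⟩
    ext x
    exact hT _ x
  exact Set.finite_coe_iff.mpr ((Set.finite_range _).subset h4)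

theorem frob_facts {A : ValuationSubring Qbar} {ℓ : ℕ} {ρ : GQ →* GL (Fin 2) (ResidueField A)}
    (hρ : IsRepAt N α e ℓ A ρ) {p : Nat.Primes} (hpN : ¬ (p : ℕ) ∣ N) (hpℓ : (p : ℕ) ≠ ℓ) :
    ∃ (ha : α p ∈ A) (he : e p ∈ A),
      ((ρ (frb p) : GL (Fin 2) (ResidueField A)) : Matrix (Fin 2) (Fin 2) (ResidueField A)).trace =
          residue A ⟨α p, ha⟩ ∧
        ((ρ (frb p) : GL (Fin 2) (ResidueField A)) : Matrix (Fin 2) (Fin 2) (ResidueField A)).det =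
          residue A ⟨e p, he⟩ := by
  obtain ⟨ha, he, hB⟩ := hρ.2 p p.2 hpN hpℓ
  exact ⟨ha, he, (hB (plc p) (plc_lies p)).2 (frb p) (frb_spec p)⟩

/-- the ratio of the reductions -/
theorem isRatio_frb {A : ValuationSubring Qbar} {ℓ : ℕ} {ρ : GQ →* GL (Fin 2) (ResidueField A)}
    (hρ : IsRepAt N α e ℓ A ρ) {p : Nat.Primes} (hpN : ¬ (p : ℕ) ∣ N) (hpℓ : (p : ℕ) ≠ ℓ)
    {r : Qbar} (hr : r ^ 2 - (α p ^ 2 / e p - 2) * r + 1 = 0) (hrA : r ∈ A) (he0 : e p ≠ 0) :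
    IsRatio ((ρ (frb p) : GL (Fin 2) (ResidueField A)) : Matrix (Fin 2) (Fin 2) (ResidueField A))
      (residue A ⟨r, hrA⟩) := by
  obtain ⟨ha, he, htr, hdet⟩ := frob_facts hρ hpN hpℓ
  have hu1 : residue A ⟨e p, he⟩ ≠ 0 := by
    rw [← hdet]
    exact det_GL_ne_zero _
  have := residue_ratio ha he hrA he0 hu1 hr
  unfold IsRatio rt
  rw [htr, hdet]
  exact this

/-! ### (b) the pairs with a ratio of infinite order -/

theorem ud_pair (h : DSData N ι α e) {a u r : Qbar} (ha : IsIntegral ℤ a) {m : ℕ} (hm : 0 < m)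
    (hu : u ^ m = 1) (hr : r ^ 2 - (a ^ 2 / u - 2) * r + 1 = 0)
    (hinf : ∀ k : ℕ, 0 < k → r ^ k ≠ 1) {δ : ℝ} (hδ : 0 < δ) :
    UD {p : Nat.Primes | ¬ (p : ℕ) ∣ N ∧ α p = a ∧ e p = u} δ := by
  have hu0 : u ≠ 0 := by
    rintro rfl
    rw [zero_pow hm.ne'] at hu
    exact zero_ne_one hu
  have ht := isIntegral_t hm ha hu
  have hri : IsIntegral ℤ r := isIntegral_of_quad ht isIntegral_one hr
  obtain ⟨hr0, hr'⟩ := root_inv hr
  have hri' : IsIntegral ℤ r⁻¹ := isIntegral_of_quad ht isIntegral_one hr'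
  obtain ⟨ℓ₀, hreps⟩ := h.reps
  obtain ⟨n, hn1, hnδ, ℓ, hℓ, hℓ₀, hdvd, A, hA, hrA, hprim⟩ := kummer hri hri' hr0 hinf hδ ℓ₀
  obtain ⟨ρ, hρ⟩ := hreps ℓ hℓ hℓ₀ A hA
  obtain ⟨hfin, hsurj, hL⟩ := range_facts hρ
  have h1 := ud_frob hsurj hL (closed_pri ρ.range (M := ℓ - 1) (n := n))
  have h2 := lemmaT (G := ρ.range) (M := ℓ - 1) hn1 hdvd
  have h3 : (Nat.card {g : ρ.range | Pri ρ.range (ℓ - 1) n g} / Nat.card ρ.range : ℝ) ≤ δ := by
    have hG : (0 : ℝ) < Nat.card ρ.range := by exact_mod_cast Nat.card_pos (α := ρ.range)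
    rw [div_le_iff₀ hG]
    have h4 : (n : ℝ) * Nat.card {g : ρ.range | Pri ρ.range (ℓ - 1) n g} ≤
        2 * n.totient * Nat.card ρ.range := by exact_mod_cast h2
    have hn0 : (0 : ℝ) < n := by exact_mod_cast (by omega : 0 < n)
    have h5 : (n : ℝ) * Nat.card {g : ρ.range | Pri ρ.range (ℓ - 1) n g} ≤
        n * (δ * Nat.card ρ.range) := by nlinarith
    exact le_of_mul_le_mul_left h5 hn0
  have h4 := (h1.mono h3).union (UD.finite (X := {p : Nat.Primes | (p : ℕ) = ℓ})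
    ((Set.finite_singleton (⟨ℓ, hℓ⟩ : Nat.Primes)).subset fun p hp => Subtype.ext hp))
  rw [add_zero] at h4
  refine h4.mono_set ?_
  rintro p ⟨hpN, hpa, hpu⟩
  by_cases hpℓ : (p : ℕ) = ℓ
  · exact Or.inr hpℓ
  · refine Or.inl ?_
    refine ⟨residue A ⟨r, hrA⟩, ?_, hprim⟩
    exact isRatio_frb hρ hpN hpℓ (by rw [hpa, hpu]; exact hr) hrA (by rw [hpu]; exact hu0)

/-! ### (c) the exponent -/

theorem exists_exp (t : Qbar) : ∃ o : ℕ, 0 < o ∧ ((∃ k : ℕ, 0 < k ∧ ∃ s : Qbar,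
    s ^ 2 - t * s + 1 = 0 ∧ s ^ k = 1) → ∀ s : Qbar, s ^ 2 - t * s + 1 = 0 → s ^ o = 1) := by
  by_cases h : ∃ k : ℕ, 0 < k ∧ ∃ s : Qbar, s ^ 2 - t * s + 1 = 0 ∧ s ^ k = 1
  · obtain ⟨k, hk, s, hs, hsk⟩ := h
    refine ⟨k, hk, fun _ r hr => ?_⟩
    rcases root_eq_or hs hr with rfl | rfl
    · exact hsk
    · rw [inv_pow, hsk, inv_one]
  · exact ⟨1, one_pos, fun h' => absurd h' h⟩

theorem exists_B (h : DSData N ι α e) : ∃ B : ℕ, 0 < B ∧ ∀ p : ℕ, p.Prime → ¬ p ∣ N →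
    ∀ s : Qbar, s ^ 2 - (α p ^ 2 / e p - 2) * s + 1 = 0 → (∃ k : ℕ, 0 < k ∧ s ^ k = 1) →
      s ^ B = 1 := by
  classical
  obtain ⟨K, hK, hKα⟩ := h.field
  obtain ⟨m, hm, hem⟩ := h.root
  have hT := finite_bdd ι K 2
  choose o ho1 ho2 using exists_exp
  refine ⟨∏ t ∈ hT.toFinset, o t, Finset.prod_pos fun t _ => ho1 t, ?_⟩
  intro p hp hpN s hs ⟨k, hk, hsk⟩
  have hmem : α p ^ 2 / e p - 2 ∈ hT.toFinset := by
    rw [Set.Finite.mem_toFinset]
    refine ⟨?_, isIntegral_t hm (h.int p hp hpN) (hem p hp hpN), fun τ => ?_⟩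
    · have h2 : (2 : Qbar) ∈ K := by simp
      exact K.sub_mem (K.div_mem (pow_mem (hKα p hp hpN).1 2) (hKα p hp hpN).2) h2
    · have h0 := (root_inv hs).1
      have e1 : α p ^ 2 / e p - 2 = s + s⁻¹ := by
        field_simp at hs ⊢
        linear_combination -hs
      have h1 : ‖ι (τ s)‖ = 1 := by
        refine Complex.norm_eq_one_of_pow_eq_one (n := k) ?_ hk.ne'
        rw [← map_pow, ← map_pow, hsk, map_one, map_one]
      rw [e1, map_add, map_add]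
      refine (norm_add_le _ _).trans ?_
      rw [map_inv₀, map_inv₀, norm_inv, h1]
      norm_num
  have h1 := ho2 _ ⟨k, hk, s, hs, hsk⟩ s hs
  obtain ⟨d, hd⟩ := Finset.dvd_prod_of_mem o hmem
  rw [hd, pow_mul, h1, one_pow]

theorem ud_bad (h : DSData N ι α e) {B : ℕ} (hB : ∀ p : ℕ, p.Prime → ¬ p ∣ N →
    ∀ s : Qbar, s ^ 2 - (α p ^ 2 / e p - 2) * s + 1 = 0 → (∃ k : ℕ, 0 < k ∧ s ^ k = 1) →
      s ^ B = 1) {δ : ℝ} (hδ : 0 < δ) :
    UD {p : Nat.Primes | ¬ (p : ℕ) ∣ N ∧ ∃ s : Qbar,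
      s ^ 2 - (α p ^ 2 / e p - 2) * s + 1 = 0 ∧ s ^ B ≠ 1} δ := by
  classical
  obtain ⟨K, hK, hKα⟩ := h.field
  obtain ⟨m, hm, hem⟩ := h.root
  obtain ⟨c, hc⟩ := ud_large h (half_pos hδ)
  have hY := finite_bdd ι K c
  have hE : {u : Qbar | u ^ m = 1}.Finite := by
    refine ((Polynomial.nthRootsFinset m (1 : Qbar)).finite_toSet).subset fun u hu => ?_
    rw [Finset.mem_coe, Polynomial.mem_nthRootsFinset hm]
    exact hu
  set Z : Finset (Qbar × Qbar) := (hY.toFinset ×ˢ hE.toFinset).filter (fun z => ∃ r : Qbar,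
    r ^ 2 - (z.1 ^ 2 / z.2 - 2) * r + 1 = 0 ∧ ∀ k : ℕ, 0 < k → r ^ k ≠ 1) with hZ
  set δ' : ℝ := δ / (2 * (Z.card + 1)) with hδ'
  have hδ'0 : 0 < δ' := by positivity
  have h1 := UD.biUnion Z (fun z => {p : Nat.Primes | ¬ (p : ℕ) ∣ N ∧ α p = z.1 ∧ e p = z.2})
    (δ := fun _ => δ') (fun z hz => by
      rw [hZ, Finset.mem_filter, Finset.mem_product, Set.Finite.mem_toFinset,
        Set.Finite.mem_toFinset] at hz
      obtain ⟨⟨⟨-, hz1, -⟩, hz2⟩, r, hr, hinf⟩ := hz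
      exact ud_pair h hz1 hm hz2 hr hinf hδ'0)
  have h2 := hc.union h1
  have h3 : δ / 2 + ∑ _z ∈ Z, δ' ≤ δ := by
    rw [Finset.sum_const, nsmul_eq_mul, hδ']
    have hc0 : (0 : ℝ) ≤ Z.card := Nat.cast_nonneg _
    have : (Z.card : ℝ) * (δ / (2 * (Z.card + 1))) ≤ δ / 2 := by
      rw [mul_div_assoc', div_le_iff₀ (by positivity)]
      nlinarith
    linarith
  refine (h2.mono h3).mono_set ?_
  rintro p ⟨hpN, s, hs, hsB⟩
  by_cases hτ : ∃ τ : GQ, c < ‖ι (τ (α p))‖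
  · exact Or.inl ⟨hpN, hτ⟩
  · push Not at hτ
    refine Or.inr ?_
    simp only [Set.mem_iUnion]
    refine ⟨(α p, e p), ?_, hpN, rfl, rfl⟩
    rw [hZ, Finset.mem_filter, Finset.mem_product, Set.Finite.mem_toFinset,
      Set.Finite.mem_toFinset]
    refine ⟨⟨⟨(hKα p p.2 hpN).1, h.int p p.2 hpN, hτ⟩, hem p p.2 hpN⟩, s, hs, fun k hk hsk => ?_⟩
    exact hsB (hB p p.2 hpN s hs ⟨k, hk, hsk⟩)

theorem eq_empty_of_card {G : Type*} [Group G] [Finite G] {D : Set G}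
    (h : ∀ δ : ℝ, 0 < δ → (Nat.card D : ℝ) ≤ δ * Nat.card G) : D = ∅ := by
  by_contra hne
  obtain ⟨x, hx⟩ := Set.nonempty_iff_ne_empty.mpr hne
  haveI : Nonempty D := ⟨⟨x, hx⟩⟩
  have h1 : 1 ≤ Nat.card D := Nat.card_pos
  have hG : (0 : ℝ) < Nat.card G := by exact_mod_cast Nat.card_pos (α := G)
  have h2 := h (1 / (2 * Nat.card G)) (by positivity)
  have h3 : 1 / (2 * (Nat.card G : ℝ)) * Nat.card G = 1 / 2 := by field_simp
  rw [h3] at h2
  have h4 : (1 : ℝ) ≤ Nat.card D := by exact_mod_cast h1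
  linarith

/-! ### (d) the eigenvalues in the representations -/

theorem finite_dvd (hN : N ≠ 0) (ℓ : ℕ) :
    {p : Nat.Primes | (p : ℕ) ∣ N ∨ (p : ℕ) = ℓ}.Finite := by
  refine Set.Finite.of_finite_image (f := fun p : Nat.Primes => (p : ℕ)) ?_
    (Subtype.val_injective.injOn)
  refine ((Set.finite_Iic N).union (Set.finite_singleton ℓ)).subset ?_
  rintro _ ⟨p, hp, rfl⟩
  rcases hp with hp | hp
  · exact Or.inl (Nat.le_of_dvd (Nat.pos_of_ne_zero hN) hp)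
  · exact Or.inr hp

theorem exists_quad_root (t : Qbar) : ∃ r : Qbar, r ^ 2 - t * r + 1 = 0 := by
  obtain ⟨a, ha⟩ := IsAlgClosed.exists_root (Polynomial.X ^ 2 - Polynomial.C t *
    Polynomial.X + Polynomial.C 1 : Polynomial Qbar) (by
      have : (Polynomial.X ^ 2 - Polynomial.C t * Polynomial.X + Polynomial.C 1 :
        Polynomial Qbar).natDegree = 2 := by compute_degree!
      intro h
      rw [Polynomial.degree_eq_natDegree (fun h0 => by rw [h0] at this; simp at this), this] at h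
      exact absurd h (by decide))
  exact ⟨a, by simpa using ha⟩

theorem ratio_pow (hN : N ≠ 0) {m : ℕ} (hm : 0 < m) (hem : ∀ p : ℕ, p.Prime → ¬ p ∣ N → e p ^ m = 1)
    (hint : ∀ p : ℕ, p.Prime → ¬ p ∣ N → IsIntegral ℤ (α p)) {B : ℕ}
    (hbad : ∀ δ : ℝ, 0 < δ → UD {p : Nat.Primes | ¬ (p : ℕ) ∣ N ∧ ∃ s : Qbar,
      s ^ 2 - (α p ^ 2 / e p - 2) * s + 1 = 0 ∧ s ^ B ≠ 1} δ)
    {A : ValuationSubring Qbar} {ℓ : ℕ} {ρ : GQ →* GL (Fin 2) (ResidueField A)}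
    (hρ : IsRepAt N α e ℓ A ρ) (σ : GQ) {s : ResidueField A}
    (hs : IsRatio ((ρ σ : GL (Fin 2) (ResidueField A)) : Matrix (Fin 2) (Fin 2) (ResidueField A)) s) :
    s ^ B = 1 := by
  obtain ⟨hfin, hsurj, hL⟩ := range_facts hρ
  have h1 : {g : ρ.range | ∃ r, IsRatio ((g : GL (Fin 2) (ResidueField A)) :
      Matrix (Fin 2) (Fin 2) (ResidueField A)) r ∧ r ^ B ≠ 1} = ∅ := by
    refine eq_empty_of_card fun δ hδ => ?_
    have hU := (hbad δ hδ).union (UD.finite (finite_dvd hN ℓ))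
    rw [add_zero] at hU
    refine card_le_of_ud hsurj hL (closed_ratio_ne ρ.range) hU ?_
    rintro p ⟨r, hr, hrB⟩
    by_cases hp : (p : ℕ) ∣ N ∨ (p : ℕ) = ℓ
    · exact Or.inr hp
    · push Not at hp
      refine Or.inl ⟨hp.1, ?_⟩
      have hep := hem p p.2 hp.1
      have he0 : e p ≠ 0 := by
        intro h0
        rw [h0, zero_pow hm.ne'] at hep
        exact zero_ne_one hep
      obtain ⟨x, hx⟩ := exists_quad_root (α p ^ 2 / e p - 2)
      have ht := isIntegral_t hm (hint p p.2 hp.1) hep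
      have hxi : IsIntegral ℤ x := isIntegral_of_quad ht isIntegral_one hx
      have hxA := Frob.mem_of_isIntegral A hxi
      have h2 := isRatio_frb hρ hp.1 hp.2 hx hxA he0
      refine ⟨x, hx, fun hxB => hrB ?_⟩
      have h3 : residue A ⟨x, hxA⟩ ^ B = 1 := by
        rw [← map_pow]
        have : (⟨x, hxA⟩ : A) ^ B = 1 := Subtype.ext hxB
        rw [this, map_one]
      rcases ratio_eq_or h2 hr with h4 | h4
      · rw [h4]; exact h3
      · rw [h4, inv_pow, h3, inv_one]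
  by_contra hne
  have h2 : (⟨ρ σ, ⟨σ, rfl⟩⟩ : ρ.range) ∈ {g : ρ.range | ∃ r, IsRatio
      ((g : GL (Fin 2) (ResidueField A)) : Matrix (Fin 2) (Fin 2) (ResidueField A)) r ∧ r ^ B ≠ 1} := ⟨s, hs, hne⟩
  rw [h1] at h2
  exact h2

theorem det_pow_eq (hN : N ≠ 0) {m : ℕ} (hem : ∀ p : ℕ, p.Prime → ¬ p ∣ N → e p ^ m = 1)
    {A : ValuationSubring Qbar} {ℓ : ℕ} {ρ : GQ →* GL (Fin 2) (ResidueField A)}
    (hρ : IsRepAt N α e ℓ A ρ) (σ : GQ) :
    ((ρ σ : GL (Fin 2) (ResidueField A)) : Matrix (Fin 2) (Fin 2) (ResidueField A)).det ^ m = 1 := by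
  obtain ⟨hfin, hsurj, hL⟩ := range_facts hρ
  have h1 : {g : ρ.range | ((g : GL (Fin 2) (ResidueField A)) :
      Matrix (Fin 2) (Fin 2) (ResidueField A)).det ^ m ≠ 1} = ∅ := by
    refine eq_empty_of_card fun δ hδ => ?_
    have hU := (UD.finite (finite_dvd hN ℓ)).mono hδ.le
    refine card_le_of_ud hsurj hL (closed_det_ne ρ.range) hU ?_
    intro p hpD
    by_contra hp
    rw [Set.mem_ofPred_eq] at hp
    push Not at hp
    obtain ⟨ha, he, htr, hdet⟩ := frob_facts hρ hp.1 hp.2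
    refine hpD ?_
    have h2 : (⟨e p, he⟩ : A) ^ m = 1 := Subtype.ext (hem p p.2 hp.1)
    have h3 : ((ρ.rangeRestrict (frb p) : GL (Fin 2) (ResidueField A)) :
      Matrix (Fin 2) (Fin 2) (ResidueField A)).det = residue A ⟨e p, he⟩ := hdet
    rw [h3, ← map_pow, h2, map_one]
  by_contra hne
  have h2 : (⟨ρ σ, ⟨σ, rfl⟩⟩ : ρ.range) ∈ {g : ρ.range | ((g : GL (Fin 2) (ResidueField A)) :
      Matrix (Fin 2) (Fin 2) (ResidueField A)).det ^ m ≠ 1} := hne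
  rw [h1] at h2
  exact h2

/-! ### (e) conclusion -/

/-- **(D)** of Deligne-Serre: the representations have bounded image -/
theorem dStatement : DStatement := by
  intro N hN ι α e h
  obtain ⟨m, hm, hem⟩ := h.root
  obtain ⟨B, hB0, hB⟩ := exists_B h
  have hbad := fun δ (hδ : (0 : ℝ) < δ) => ud_bad h hB hδ
  obtain ⟨ℓ₀, hreps⟩ := h.reps
  -- all the ratios in `Qbar`
  have hrat : ∀ p : ℕ, p.Prime → ¬ p ∣ N → ∀ s : Qbar,
      s ^ 2 - (α p ^ 2 / e p - 2) * s + 1 = 0 → s ^ B = 1 := by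
    intro p hp hpN s hs
    by_contra hne
    have hep := hem p hp hpN
    have he0 : e p ≠ 0 := by
      intro h0
      rw [h0, zero_pow hm.ne'] at hep
      exact zero_ne_one hep
    have ht := isIntegral_t hm (h.int p hp hpN) hep
    have hsi : IsIntegral ℤ s := isIntegral_of_quad ht isIntegral_one hs
    have hβ0 : s ^ B - 1 ≠ 0 := sub_ne_zero.mpr hne
    obtain ⟨y, hy0, hy⟩ := exists_int_valuation_eq_one hβ0 ((hsi.pow B).sub isIntegral_one)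
    obtain ⟨ℓ, hℓle, hℓ⟩ := Nat.exists_infinite_primes (ℓ₀ + y.natAbs + p + 1)
    have hℓy : ¬ (ℓ : ℤ) ∣ y := by
      intro hd
      have := Nat.le_of_dvd (Int.natAbs_pos.mpr hy0) (Int.natCast_dvd.mp hd)
      omega
    have hA := plc_lies ⟨ℓ, hℓ⟩
    set A := plc ⟨ℓ, hℓ⟩ with hAdef
    obtain ⟨ρ, hρ⟩ := hreps ℓ hℓ (by omega) A hA
    have hv := hy ℓ hℓ hℓy A hA
    have hsA := Frob.mem_of_isIntegral A hsi
    have h1 := isRatio_frb (p := ⟨p, hp⟩) hρ hpN (show p ≠ ℓ by omega) hs hsA he0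
    have h2 := ratio_pow hN hm hem h.int hbad hρ _ h1
    have h3 : A.valuation (s ^ B - 1) < 1 := by
      have h4 : residue A (⟨s, hsA⟩ ^ B) = residue A 1 := by
        rw [map_pow, h2, map_one]
      exact (residue_eq_iff A _ _).mp h4
    rw [hv] at h3
    exact lt_irrefl _ h3
  have hBm : 0 < 2 * B * m := by positivity
  refine ⟨(2 * B * m) ^ 8, by positivity, ?_, max ℓ₀ 3, ?_⟩
  · intro p hp hpN x hx
    have hep := hem p hp hpN
    have he0 : e p ≠ 0 := by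
      intro h0
      rw [h0, zero_pow hm.ne'] at hep
      exact zero_ne_one hep
    have h1 := pow_eig hx he0 (hrat p hp hpN) hep
    have e1 : (2 * B * m) ^ 8 = (2 * B * m) * (2 * B * m) ^ 7 := by ring
    rw [e1, pow_mul, h1, one_pow]
  · intro ℓ hℓ hle A hA
    obtain ⟨ρ, hρ⟩ := hreps ℓ hℓ ((le_max_left _ _).trans hle) A hA
    haveI : CharP (ResidueField A) ℓ := charP_residueField A hℓ hA
    have hℓ3 : 3 ≤ ℓ := (le_max_right _ _).trans hle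
    have h2 : (2 : ResidueField A) ≠ 0 := by
      intro h0
      have h1 : ((2 : ℕ) : ResidueField A) = 0 := by exact_mod_cast h0
      rw [CharP.cast_eq_zero_iff (ResidueField A) ℓ] at h1
      have := Nat.le_of_dvd (by norm_num) h1
      omega
    obtain ⟨ρ', h3, h4, h5, h6⟩ := exists_bounded h2 ρ hBm fun σ x hx =>
      pow_eig hx (det_GL_ne_zero _) (fun s hs => ratio_pow hN hm hem h.int hbad hρ σ hs)
        (det_pow_eq hN hem hρ σ)
    refine ⟨ρ', ⟨?_, ?_⟩, h5, h6⟩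
    · obtain ⟨L, hL, hL'⟩ := hρ.1
      exact ⟨L, hL, fun σ hσ => h4 σ (hL' σ hσ)⟩
    · intro p hp hpN hpℓ
      obtain ⟨ha, he, hh⟩ := hρ.2 p hp hpN hpℓ
      refine ⟨ha, he, fun A' hA' => ⟨fun σ hσ => h4 σ ((hh A' hA').1 σ hσ), fun σ hσ => ?_⟩⟩
      rw [(h3 σ).1, (h3 σ).2]
      exact (hh A' hA').2 σ hσ

end Fermat.Agent.DSD
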