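import Fermat.Agent.FrobDens.Main
import Mathlib.NumberTheory.SumPrimeReciprocals
import Mathlib.NumberTheory.NumberField.InfinitePlace.Embeddings

/-!
# Finiteness of bounded integers, and the choice of the moduli
-/

set_option autoImplicit false
set_option linter.unusedSectionVars false
set_option linter.style.haveILetI false

noncomputable section

namespace Fermat.Agent.DSD

local notation "Qbar" => AlgebraicClosure ℚ
local notation "GQ" => Qbar ≃ₐ[ℚ] Qbar

/-- finitely many integers of bounded size in a number field -/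
theorem finite_bdd (ι : Qbar →+* ℂ) (K : IntermediateField ℚ Qbar) [FiniteDimensional ℚ K]
    (c : ℝ) : {x : Qbar | x ∈ K ∧ IsIntegral ℤ x ∧ ∀ τ : GQ, ‖ι (τ x)‖ ≤ c}.Finite := by
  letI i1 : NormedField Qbar := NormedField.induced Qbar ℂ ι ι.injective
  have hn : ∀ x : Qbar, ‖x‖ = ‖ι x‖ := fun _ => rfl
  letI i2 : NormedAlgebra ℚ Qbar :=
    { (inferInstance : Algebra ℚ Qbar) with
      norm_smul_le := by
        intro q x
        rw [hn, hn, Algebra.smul_def, map_mul, norm_mul]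
        have : ι (algebraMap ℚ Qbar q) = algebraMap ℚ ℂ q := by
          rw [← RingHom.comp_apply]
          exact RingHom.congr_fun (Subsingleton.elim _ _) q
        rw [this, norm_algebraMap'] }
  have h := (NumberField.Embeddings.finite_of_norm_le K Qbar c).image
    (fun x : K => (x : Qbar))
  refine h.subset ?_
  rintro x ⟨hx, hx1, hx2⟩
  refine ⟨⟨x, hx⟩, ⟨?_, ?_⟩, rfl⟩
  · exact (isIntegral_algHom_iff (K.val.restrictScalars ℤ) Subtype.val_injective).mp hx1
  · intro φ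
    let φ' : K →ₐ[ℚ] Qbar := φ.toRatAlgHom
    haveI : Algebra.IsAlgebraic ℚ Qbar := AlgebraicClosure.isAlgebraic ℚ
    haveI : Algebra.IsAlgebraic K Qbar := Algebra.IsAlgebraic.tower_top (K := ℚ) K
    obtain ⟨ψ, hψ⟩ := IsAlgClosed.surjective_domRestrict_of_isAlgebraic (K := ℚ) (L := K)
      (M := Qbar) (E := Qbar) φ'
    have h1 : ψ x = φ ⟨x, hx⟩ := DFunLike.congr_fun hψ (⟨x, hx⟩ : K)
    rw [← h1, hn]
    exact hx2 (Algebra.IsAlgebraic.algEquivEquivAlgHom ℚ Qbar |>.symm ψ)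

theorem exists_bound (ι : Qbar →+* ℂ) (r : Qbar) : ∃ c : ℝ, ∀ τ : GQ, ‖ι (τ r)‖ ≤ c := by
  haveI : Algebra.IsAlgebraic ℚ Qbar := AlgebraicClosure.isAlgebraic ℚ
  have h1 : {y : Qbar | ∃ τ : GQ, τ r = y}.Finite := by
    have h2 : (minpoly ℚ r).rootSet Qbar |>.Finite := Polynomial.rootSet_finite _ _
    refine h2.subset ?_
    rintro _ ⟨τ, rfl⟩
    rw [Polynomial.mem_rootSet]
    refine ⟨minpoly.ne_zero (Algebra.IsAlgebraic.isAlgebraic r).isIntegral, ?_⟩
    rw [Polynomial.aeval_algEquiv, AlgHom.comp_apply, minpoly.aeval, map_zero]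
  obtain ⟨c, hc⟩ := (h1.image (fun y => ‖ι y‖)).bddAbove
  exact ⟨c, fun τ => hc ⟨_, ⟨τ, rfl⟩, rfl⟩⟩

/-- the totient of a product of distinct primes -/
theorem totient_prod (P : Finset ℕ) (hP : ∀ k ∈ P, k.Prime) :
    (∏ k ∈ P, k).totient = ∏ k ∈ P, (k - 1) := by
  classical
  induction P using Finset.induction with
  | empty => simp
  | insert a s ha ih =>
    rw [Finset.prod_insert ha, Finset.prod_insert ha, Nat.totient_mul,
      ih (fun k hk => hP k (Finset.mem_insert_of_mem hk)),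
      Nat.totient_prime (hP a (Finset.mem_insert_self a s))]
    refine Nat.Coprime.prod_right fun k hk => ?_
    rw [Nat.coprime_primes (hP a (Finset.mem_insert_self a s))
      (hP k (Finset.mem_insert_of_mem hk))]
    rintro rfl
    exact ha hk

/-- choice of the moduli -/
theorem exists_primes {δ : ℝ} (hδ : 0 < δ) (r0 : ℕ) : ∃ P : Finset ℕ, (∀ k ∈ P, k.Prime) ∧
    (∀ k ∈ P, r0 < k) ∧ 1 < ∏ k ∈ P, k ∧
    2 * ((∏ k ∈ P, k).totient : ℝ) < δ * (∏ k ∈ P, k : ℕ) := by
  classical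
  have h1 : ¬ Summable (fun p : Nat.Primes => if r0 < (p : ℕ) then (1 / (p : ℕ) : ℝ) else 0) := by
    intro h
    refine Nat.Primes.not_summable_one_div ?_
    have hfin : {p : Nat.Primes | (p : ℕ) ≤ r0}.Finite := by
      refine Set.Finite.of_finite_image (f := fun p : Nat.Primes => (p : ℕ)) ?_
        (Subtype.val_injective.injOn)
      refine (Set.finite_Iic r0).subset ?_
      rintro _ ⟨p, hp, rfl⟩
      exact hp
    refine (summable_congr_cofinite ?_).mp h
    have : {p : Nat.Primes | (p : ℕ) ≤ r0}ᶜ ∈ Filter.cofinite := by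
      rw [Filter.mem_cofinite, compl_compl]
      exact hfin
    filter_upwards [this] with p hp
    rw [if_pos (by simpa using hp)]
  set d : ℝ := min δ 1 with hd
  have hd0 : 0 < d := lt_min hδ one_pos
  obtain ⟨s, hs⟩ : ∃ s : Finset Nat.Primes, Real.log (4 / d) <
      ∑ p ∈ s, (if r0 < (p : ℕ) then (1 / (p : ℕ) : ℝ) else 0) := by
    by_contra hcon
    push Not at hcon
    exact h1 (summable_of_sum_le (c := Real.log (4 / d)) (fun p => by positivity) hcon)
  set P : Finset ℕ := Finset.image (fun p : Nat.Primes => (p : ℕ))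
    (s.filter (fun p : Nat.Primes => r0 < (p : ℕ))) with hPdef
  have hmem : ∀ k ∈ P, k.Prime ∧ r0 < k := by
    intro k hk
    rw [hPdef, Finset.mem_image] at hk
    obtain ⟨p, hp, rfl⟩ := hk
    rw [Finset.mem_filter] at hp
    exact ⟨p.2, hp.2⟩
  have hsum : ∑ p ∈ s, (if r0 < (p : ℕ) then (1 / (p : ℕ) : ℝ) else 0) = ∑ k ∈ P, (1 / k : ℝ) := by
    rw [← Finset.sum_filter, hPdef, Finset.sum_image]
    intro a _ b _ h
    exact Subtype.ext h
  rw [hsum] at hs
  have hprod : ((∏ k ∈ P, k).totient : ℝ) ≤ Real.exp (-∑ k ∈ P, (1 / k : ℝ)) *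
      ((∏ k ∈ P, k : ℕ) : ℝ) := by
    rw [totient_prod P fun k hk => (hmem k hk).1, ← Finset.sum_neg_distrib, Real.exp_sum,
      Nat.cast_prod, Nat.cast_prod, ← Finset.prod_mul_distrib]
    refine Finset.prod_le_prod (fun k _ => Nat.cast_nonneg _) fun k hk => ?_
    have hk1 := (hmem k hk).1.one_lt
    have hk0 : (0 : ℝ) < k := by exact_mod_cast (by omega : 0 < k)
    rw [Nat.cast_sub hk1.le, Nat.cast_one]
    have := Real.add_one_le_exp (-(1 / k : ℝ))
    calc (k : ℝ) - 1 = (-(1 / k : ℝ) + 1) * k := by field_simp; ring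
      _ ≤ Real.exp (-(1 / k : ℝ)) * k := mul_le_mul_of_nonneg_right this hk0.le
  have hpos : (0 : ℝ) < (∏ k ∈ P, k : ℕ) := by
    have : 0 < ∏ k ∈ P, k := Finset.prod_pos fun k hk => (hmem k hk).1.pos
    exact_mod_cast this
  have hlt : 2 * ((∏ k ∈ P, k).totient : ℝ) < d * (∏ k ∈ P, k : ℕ) := by
    have h4 : 0 < 4 / d := by positivity
    have h3 : Real.exp (-∑ k ∈ P, (1 / k : ℝ)) < d / 4 := by
      calc Real.exp (-∑ k ∈ P, (1 / k : ℝ)) < Real.exp (-Real.log (4 / d)) :=
            Real.exp_lt_exp.mpr (neg_lt_neg hs)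
        _ = d / 4 := by rw [Real.exp_neg, Real.exp_log h4, inv_div]
    calc 2 * ((∏ k ∈ P, k).totient : ℝ) ≤ 2 * (Real.exp (-∑ k ∈ P, (1 / k : ℝ)) *
          ((∏ k ∈ P, k : ℕ) : ℝ)) := by linarith
      _ ≤ 2 * (d / 4 * ((∏ k ∈ P, k : ℕ) : ℝ)) := by
          have := mul_le_mul_of_nonneg_right h3.le hpos.le
          linarith
      _ < d * (∏ k ∈ P, k : ℕ) := by nlinarith
  refine ⟨P, fun k hk => (hmem k hk).1, fun k hk => (hmem k hk).2, ?_, ?_⟩
  · by_contra hcon
    have hp1 : ∏ k ∈ P, k = 1 := by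
      have : 0 < ∏ k ∈ P, k := Finset.prod_pos fun k hk => (hmem k hk).1.pos
      omega
    rw [hp1] at hlt
    have : d ≤ 1 := min_le_right _ _
    simp only [Nat.totient_one, Nat.cast_one] at hlt
    linarith
  · exact hlt.trans_le (mul_le_mul_of_nonneg_right (min_le_left _ _) hpos.le)

end Fermat.Agent.DSD
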