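import Fermat.Agent.DSD.Grp

/-!
# Groups of matrices with bounded eigenvalues are bounded
-/

set_option autoImplicit false
set_option linter.unusedSectionVars false
set_option linter.style.haveILetI false

noncomputable section

namespace Fermat.Agent.DSD

open Matrix

variable {F : Type*} [Field F]

theorem sq_zero {x : Matrix (Fin 2) (Fin 2) F} (h2 : (2 : F) ≠ 0) (h : x.trace = 0)
    (h' : (x * x).trace = 0) : x * x = 0 := by
  have hdet : x.det = 0 := by
    have h1 := sq_eq (x := x) rfl rfl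
    rw [h1, trace_sub, trace_smul, trace_smul, h, trace_one, Fintype.card_fin] at h'
    simp only [smul_eq_mul, mul_zero, zero_sub, Nat.cast_ofNat] at h'
    rw [neg_eq_zero, mul_eq_zero] at h'
    exact h'.resolve_right h2
  rw [sq_eq h hdet]
  simp

theorem ker_line {s : Matrix (Fin 2) (Fin 2) F} (hs : s ≠ 0) {w u : Fin 2 → F} (hw : w ≠ 0)
    (h1 : s *ᵥ w = 0) (h2 : s *ᵥ u = 0) : ∃ c : F, u = c • w := by
  have hdet : w 0 * u 1 - w 1 * u 0 = 0 := by
    obtain ⟨i, j, hij⟩ : ∃ i j, s i j ≠ 0 := by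
      by_contra hcon
      push Not at hcon
      exact hs (by ext i j; exact hcon i j)
    have e1 := congrFun h1 i
    have e2 := congrFun h2 i
    simp only [Matrix.mulVec, dotProduct, Fin.sum_univ_two, Pi.zero_apply] at e1 e2
    have e3 : s i 0 * (w 0 * u 1 - w 1 * u 0) = 0 := by linear_combination u 1 * e1 - w 1 * e2
    have e4 : s i 1 * (w 0 * u 1 - w 1 * u 0) = 0 := by linear_combination w 0 * e2 - u 0 * e1
    fin_cases j
    · exact (mul_eq_zero.mp e3).resolve_left hij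
    · exact (mul_eq_zero.mp e4).resolve_left hij
  by_cases h0 : w 0 = 0
  · have h1 : w 1 ≠ 0 := by
      intro h1
      exact hw (by ext i; fin_cases i <;> assumption)
    refine ⟨u 1 / w 1, ?_⟩
    have hu0 : u 0 = 0 := by
      rw [h0, zero_mul, zero_sub, neg_eq_zero, mul_eq_zero] at hdet
      exact hdet.resolve_left h1
    ext i
    fin_cases i
    · simp [hu0, h0]
    · simp [h1]
  · refine ⟨u 0 / w 0, ?_⟩
    ext i
    fin_cases i
    · simp [h0]
    · simp only [Fin.mk_one, Fin.isValue, Pi.smul_apply, smul_eq_mul]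
      field_simp
      linear_combination hdet

/-- an invariant line, or the elements are determined by the traces -/
theorem line_or_inj (h2 : (2 : F) ≠ 0) (G : Subgroup (GL (Fin 2) F)) :
    (∃ w : Fin 2 → F, w ≠ 0 ∧ ∀ g ∈ G, ∃ c : F, (g : Matrix (Fin 2) (Fin 2) F) *ᵥ w = c • w) ∨
    ∀ g ∈ G, ∀ h ∈ G, (∀ x ∈ G, ((g : Matrix (Fin 2) (Fin 2) F) * x).trace =
      ((h : Matrix (Fin 2) (Fin 2) F) * x).trace) → g = h := by
  by_contra hcon
  push Not at hcon
  obtain ⟨hcon, g, hg, h, hh, htr, hgh⟩ := hcon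
  set s : Matrix (Fin 2) (Fin 2) F := (g : Matrix (Fin 2) (Fin 2) F) - h with hs
  have hs0 : s ≠ 0 := by
    rw [hs, sub_ne_zero]
    exact fun e => hgh (Units.ext e)
  have hst : ∀ x ∈ G, (s * (x : Matrix (Fin 2) (Fin 2) F)).trace = 0 := by
    intro x hx
    rw [hs, sub_mul, trace_sub, htr x hx, sub_self]
  have hst1 : s.trace = 0 := by
    have := hst 1 G.one_mem
    rwa [Units.val_one, mul_one] at this
  have hss : s * s = 0 := by
    refine sq_zero h2 hst1 ?_
    have h3 := hst g hg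
    have h4 := hst h hh
    have e : s * s = s * (g : Matrix (Fin 2) (Fin 2) F) - s * h := by rw [← mul_sub, ← hs]
    rw [e, trace_sub, h3, h4, sub_zero]
  have hsxs : ∀ x ∈ G, s * (x : Matrix (Fin 2) (Fin 2) F) * s = 0 := by
    intro x hx
    have h3 : (s * (x : Matrix (Fin 2) (Fin 2) F)) * (s * (x : Matrix (Fin 2) (Fin 2) F)) = 0 := by
      refine sq_zero h2 (hst x hx) ?_
      have e : (s * (x : Matrix (Fin 2) (Fin 2) F)) * (s * (x : Matrix (Fin 2) (Fin 2) F)) =
          s * ((x * g * x : GL (Fin 2) F) : Matrix (Fin 2) (Fin 2) F) -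
          s * ((x * h * x : GL (Fin 2) F) : Matrix (Fin 2) (Fin 2) F) := by
        simp only [Units.val_mul]
        rw [← mul_sub, ← sub_mul, ← mul_sub, ← hs]
        simp only [mul_assoc]
      rw [e, trace_sub, hst _ (G.mul_mem (G.mul_mem hx hg) hx),
        hst _ (G.mul_mem (G.mul_mem hx hh) hx), sub_zero]
    have h4 := congrArg (fun m => m * ((x⁻¹ : GL (Fin 2) F) : Matrix (Fin 2) (Fin 2) F)) h3
    simp only [zero_mul, mul_assoc] at h4
    rw [← Units.val_mul, mul_inv_cancel, Units.val_one, mul_one] at h4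
    rw [mul_assoc]
    exact h4
  obtain ⟨v, hv⟩ : ∃ v : Fin 2 → F, s *ᵥ v ≠ 0 := by
    by_contra hc
    push Not at hc
    refine hs0 ?_
    ext i j
    have := congrFun (hc (Pi.single j 1)) i
    simpa using this
  obtain ⟨g', hg', hcg⟩ := hcon (s *ᵥ v) hv
  obtain ⟨c, hc⟩ := ker_line hs0 hv (u := (g' : Matrix (Fin 2) (Fin 2) F) *ᵥ (s *ᵥ v))
    (by rw [mulVec_mulVec, hss, zero_mulVec])
    (by rw [mulVec_mulVec, mulVec_mulVec, hsxs g' hg', zero_mulVec])
  exact hcg c hc

theorem card_le_of_traces (G : Subgroup (GL (Fin 2) F)) (T : Finset F)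
    (hT : ∀ g ∈ G, (g : Matrix (Fin 2) (Fin 2) F).trace ∈ T)
    (hinj : ∀ g ∈ G, ∀ h ∈ G, (∀ x ∈ G, ((g : Matrix (Fin 2) (Fin 2) F) * x).trace =
      ((h : Matrix (Fin 2) (Fin 2) F) * x).trace) → g = h) :
    Finite G ∧ Nat.card G ≤ T.card ^ 4 := by
  classical
  obtain ⟨b, hbS, hspan, hli⟩ := exists_linearIndependent F
    ((fun g : GL (Fin 2) F => (g : Matrix (Fin 2) (Fin 2) F)) '' (G : Set (GL (Fin 2) F)))
  haveI : Finite b := hli.finite
  haveI : Fintype b := Fintype.ofFinite b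
  have hcard : Fintype.card b ≤ 4 := by
    have h1 := hli.fintype_card_le_finrank
    rw [Module.finrank_matrix] at h1
    simpa using h1
  have hmem : ∀ (g : G) (x : b), (((g : GL (Fin 2) F) : Matrix (Fin 2) (Fin 2) F) *
      (x : Matrix (Fin 2) (Fin 2) F)).trace ∈ T := by
    intro g x
    obtain ⟨y, hy, hyx⟩ := hbS x.2
    have e : ((g : GL (Fin 2) F) : Matrix (Fin 2) (Fin 2) F) * (x : Matrix (Fin 2) (Fin 2) F) =
        (((g : GL (Fin 2) F) * y : GL (Fin 2) F) : Matrix (Fin 2) (Fin 2) F) := by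
      rw [← hyx, Units.val_mul]
    rw [e]
    exact hT _ (G.mul_mem g.2 hy)
  let f : G → (b → T) := fun g x => ⟨_, hmem g x⟩
  have hf : Function.Injective f := by
    intro g h hgh
    refine Subtype.ext (hinj g g.2 h h.2 fun x hx => ?_)
    have h1 : ∀ y ∈ Submodule.span F b, ((((g : GL (Fin 2) F) : Matrix (Fin 2) (Fin 2) F) -
        ((h : GL (Fin 2) F) : Matrix (Fin 2) (Fin 2) F)) * y).trace = 0 := by
      intro y hy
      induction hy using Submodule.span_induction with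
      | mem y hy =>
        have := congrArg Subtype.val (congrFun hgh ⟨y, hy⟩)
        rw [sub_mul, trace_sub, sub_eq_zero]
        exact this
      | zero => simp
      | add y z _ _ hy hz => rw [mul_add, trace_add, hy, hz, add_zero]
      | smul c y _ hy => rw [mul_smul_comm, trace_smul, hy, smul_zero]
    have h2 := h1 x (by
      rw [hspan]
      exact Submodule.subset_span ⟨x, hx, rfl⟩)
    rw [sub_mul, trace_sub, sub_eq_zero] at h2
    exact h2
  refine ⟨Finite.of_injective f hf, ?_⟩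
  have hT1 : 0 < T.card := Finset.card_pos.mpr ⟨_, hT 1 G.one_mem⟩
  calc Nat.card G ≤ Nat.card (b → T) := Nat.card_le_card_of_injective f hf
    _ = T.card ^ Fintype.card b := by
        rw [Nat.card_fun, Nat.card_eq_fintype_card, Nat.card_eq_fintype_card, Fintype.card_coe]
    _ ≤ T.card ^ 4 := Nat.pow_le_pow_right hT1 hcard

/-- diagonal matrices -/
def dg : Fˣ × Fˣ →* GL (Fin 2) F where
  toFun u := Matrix.GeneralLinearGroup.mkOfDetNeZero (Matrix.diagonal ![(u.1 : F), (u.2 : F)])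
    (by rw [det_diagonal]; simp)
  map_one' := by
    refine Units.ext ?_
    show Matrix.diagonal ![((1 : Fˣ) : F), ((1 : Fˣ) : F)] = 1
    ext i j
    fin_cases i <;> fin_cases j <;> simp
  map_mul' u v := by
    refine Units.ext ?_
    show Matrix.diagonal ![((u.1 * v.1 : Fˣ) : F), ((u.2 * v.2 : Fˣ) : F)] =
      Matrix.diagonal ![(u.1 : F), (u.2 : F)] * Matrix.diagonal ![(v.1 : F), (v.2 : F)]
    rw [diagonal_mul_diagonal]
    congr 1
    ext i
    fin_cases i <;> simp

theorem dg_val (u : Fˣ × Fˣ) : ((dg u : GL (Fin 2) F) : Matrix (Fin 2) (Fin 2) F) =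
    Matrix.diagonal ![(u.1 : F), (u.2 : F)] := rfl

variable {Γ : Type*} [Group Γ]

/-- bounding the image of a representation -/
theorem exists_bounded [IsAlgClosed F] (h2 : (2 : F) ≠ 0) (ρ : Γ →* GL (Fin 2) F) {B : ℕ}
    (hB : 0 < B) (h : ∀ σ : Γ, ∀ x : F, x ^ 2 - ((ρ σ : GL (Fin 2) F) :
      Matrix (Fin 2) (Fin 2) F).trace * x +
      ((ρ σ : GL (Fin 2) F) : Matrix (Fin 2) (Fin 2) F).det = 0 → x ^ B = 1) :
    ∃ ρ' : Γ →* GL (Fin 2) F,
      (∀ σ, ((ρ' σ : GL (Fin 2) F) : Matrix (Fin 2) (Fin 2) F).trace =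
        ((ρ σ : GL (Fin 2) F) : Matrix (Fin 2) (Fin 2) F).trace ∧
        ((ρ' σ : GL (Fin 2) F) : Matrix (Fin 2) (Fin 2) F).det =
        ((ρ σ : GL (Fin 2) F) : Matrix (Fin 2) (Fin 2) F).det) ∧
      (∀ σ, ρ σ = 1 → ρ' σ = 1) ∧ Finite ρ'.range ∧ Nat.card ρ'.range ≤ B ^ 8 := by
  classical
  have hR : (Polynomial.nthRootsFinset B (1 : F)).card ≤ B := by
    have h1 := Polynomial.card_nthRoots B (1 : F)
    refine le_trans ?_ h1
    unfold Polynomial.nthRootsFinset
    exact Multiset.toFinset_card_le _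
  rcases line_or_inj h2 ρ.range with ⟨w, hw, hline⟩ | hinj
  · -- reducible
    have hc : ∀ σ : Γ, ∃ c : F, ((ρ σ : GL (Fin 2) F) : Matrix (Fin 2) (Fin 2) F) *ᵥ w =
        c • w := fun σ => hline _ ⟨σ, rfl⟩
    choose c hc using hc
    have hcinj : ∀ a b : F, a • w = b • w → a = b := by
      intro a b hab
      have h3 : (a - b) • w = 0 := by rw [sub_smul, hab, sub_self]
      rcases smul_eq_zero.mp h3 with h3 | h3
      · exact sub_eq_zero.mp h3
      · exact absurd h3 hw
    have hc1 : c 1 = 1 := hcinj _ _ (by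
      rw [← hc 1, map_one, Units.val_one, one_mulVec, one_smul])
    have hcm : ∀ σ τ, c (σ * τ) = c σ * c τ := fun σ τ => hcinj _ _ (by
      rw [← hc, map_mul, Units.val_mul, ← mulVec_mulVec, hc τ, mulVec_smul, hc σ, smul_smul,
        mul_comm])
    set χ₁ : Γ →* Fˣ := MonoidHom.toHomUnits ⟨⟨c, hc1⟩, hcm⟩ with hχ₁
    have hχ₁c : ∀ σ, ((χ₁ σ : Fˣ) : F) = c σ := fun σ => rfl
    set χ₂ : Γ →* Fˣ := (Matrix.GeneralLinearGroup.det.comp ρ) / χ₁ with hχ₂
    have hdet : ∀ σ, ((ρ σ : GL (Fin 2) F) : Matrix (Fin 2) (Fin 2) F).det =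
        ((χ₁ σ : Fˣ) : F) * ((χ₂ σ : Fˣ) : F) := by
      intro σ
      have : χ₁ σ * χ₂ σ = Matrix.GeneralLinearGroup.det (ρ σ) := by
        rw [hχ₂, MonoidHom.div_apply, mul_div_cancel]
        rfl
      rw [← Units.val_mul, this]
      rfl
    -- the characteristic polynomial
    have hroot : ∀ σ, c σ ^ 2 - ((ρ σ : GL (Fin 2) F) : Matrix (Fin 2) (Fin 2) F).trace * c σ +
        ((ρ σ : GL (Fin 2) F) : Matrix (Fin 2) (Fin 2) F).det = 0 := by
      intro σ
      have h3 := sq_eq (x := ((ρ σ : GL (Fin 2) F) : Matrix (Fin 2) (Fin 2) F)) rfl rfl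
      have h4 := congrArg (fun m => m *ᵥ w) h3
      simp only [sub_mulVec, smul_mulVec, one_mulVec, ← mulVec_mulVec, hc, mulVec_smul] at h4
      have h5 : (c σ ^ 2 - ((ρ σ : GL (Fin 2) F) : Matrix (Fin 2) (Fin 2) F).trace * c σ +
        ((ρ σ : GL (Fin 2) F) : Matrix (Fin 2) (Fin 2) F).det) • w = 0 := by
        rw [add_smul, sub_smul, mul_smul, pow_two, mul_smul, h4]
        abel
      exact (smul_eq_zero.mp h5).resolve_right hw
    have htr : ∀ σ, ((ρ σ : GL (Fin 2) F) : Matrix (Fin 2) (Fin 2) F).trace =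
        ((χ₁ σ : Fˣ) : F) + ((χ₂ σ : Fˣ) : F) := by
      intro σ
      have h3 := hroot σ
      rw [hdet, hχ₁c] at h3
      have h4 : c σ ≠ 0 := by rw [← hχ₁c]; exact Units.ne_zero _
      rw [hχ₁c]
      refine mul_left_cancel₀ h4 ?_
      linear_combination -h3
    have hp1 : ∀ σ, χ₁ σ ^ B = 1 := by
      intro σ
      refine Units.ext ?_
      rw [Units.val_pow_eq_pow_val, Units.val_one, hχ₁c]
      exact h σ _ (hroot σ)
    have hp2 : ∀ σ, χ₂ σ ^ B = 1 := by
      intro σ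
      refine Units.ext ?_
      rw [Units.val_pow_eq_pow_val, Units.val_one]
      refine h σ _ ?_
      rw [htr, hdet]
      ring
    refine ⟨dg.comp (χ₁.prod χ₂), fun σ => ?_, fun σ hσ => ?_, ?_⟩
    · have e : ((dg.comp (χ₁.prod χ₂) σ : GL (Fin 2) F) : Matrix (Fin 2) (Fin 2) F) =
        Matrix.diagonal ![((χ₁ σ : Fˣ) : F), ((χ₂ σ : Fˣ) : F)] := rfl
      rw [e, htr, hdet, trace_diagonal, det_diagonal]
      simp
    · have e1 : χ₁ σ = 1 := Units.ext (by
        rw [hχ₁c, Units.val_one]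
        exact hcinj _ _ (by rw [← hc σ, hσ, Units.val_one, one_mulVec, one_smul]))
      have e2 : χ₂ σ = 1 := by
        rw [hχ₂, MonoidHom.div_apply, e1, MonoidHom.comp_apply, hσ, map_one, div_one]
      rw [MonoidHom.comp_apply, MonoidHom.prod_apply, e1, e2]
      exact map_one dg
    · haveI : NeZero B := ⟨hB.ne'⟩
      set f : (rootsOfUnity B F) × (rootsOfUnity B F) → GL (Fin 2) F :=
        fun u => dg ((u.1 : Fˣ), (u.2 : Fˣ)) with hf
      have hsub : ((dg.comp (χ₁.prod χ₂)).range : Set (GL (Fin 2) F)) ⊆ Set.range f := by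
        rintro _ ⟨σ, rfl⟩
        exact ⟨(⟨χ₁ σ, (mem_rootsOfUnity B _).mpr (hp1 σ)⟩,
          ⟨χ₂ σ, (mem_rootsOfUnity B _).mpr (hp2 σ)⟩), rfl⟩
      have hfin : (Set.range f).Finite := Set.finite_range f
      refine ⟨Set.finite_coe_iff.mpr (hfin.subset hsub), ?_⟩
      have h3 : Nat.card (rootsOfUnity B F) ≤ B := card_rootsOfUnity F B
      calc Nat.card (dg.comp (χ₁.prod χ₂)).range
          ≤ Nat.card (Set.range f) := Nat.card_mono hfin hsub
        _ ≤ Nat.card ((rootsOfUnity B F) × (rootsOfUnity B F)) := Finite.card_range_le f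
        _ = Nat.card (rootsOfUnity B F) * Nat.card (rootsOfUnity B F) := Nat.card_prod _ _
        _ ≤ B * B := Nat.mul_le_mul h3 h3
        _ = B ^ 2 := (pow_two B).symm
        _ ≤ B ^ 8 := Nat.pow_le_pow_right hB (by norm_num)
  · -- irreducible
    set T : Finset F := Finset.image₂ (· + ·) (Polynomial.nthRootsFinset B (1 : F))
      (Polynomial.nthRootsFinset B (1 : F)) with hTdef
    have hT : T.card ≤ B ^ 2 := by
      refine (Finset.card_image₂_le _ _ _).trans ?_
      rw [pow_two]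
      exact Nat.mul_le_mul hR hR
    obtain ⟨hfin, hcard⟩ := card_le_of_traces ρ.range T (by
      rintro _ ⟨σ, rfl⟩
      obtain ⟨a, b, htr, hdet⟩ := exists_eig ((ρ σ : GL (Fin 2) F) : Matrix (Fin 2) (Fin 2) F)
      rw [htr, hTdef]
      refine Finset.mem_image₂_of_mem ?_ ?_
      · rw [Polynomial.mem_nthRootsFinset hB]
        refine h σ a ?_
        rw [htr, hdet]; ring
      · rw [Polynomial.mem_nthRootsFinset hB]
        refine h σ b ?_
        rw [htr, hdet]; ring) hinj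
    refine ⟨ρ, fun σ => ⟨rfl, rfl⟩, fun σ hσ => hσ, hfin, hcard.trans ?_⟩
    calc T.card ^ 4 ≤ (B ^ 2) ^ 4 := Nat.pow_le_pow_left hT 4
      _ = B ^ 8 := by rw [← pow_mul]

end Fermat.Agent.DSD
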