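import Fermat.Agent.FrobDens.Main

/-!
# Upper densities, and the Frobenius density theorem for closed sets
-/

set_option autoImplicit false
set_option linter.unusedSectionVars false
set_option linter.style.haveILetI false

noncomputable section

namespace Fermat.Agent.DSD

open Fermat.Agent.FrobDens Filter Topology Asymptotics

local notation "Qbar" => AlgebraicClosure ℚ
local notation "GQ" => Qbar ≃ₐ[ℚ] Qbar

/-- the indicator function of a set of primes -/
def ind (X : Set Nat.Primes) : Nat.Primes → ℝ := X.indicator fun _ => 1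

theorem ind_nonneg (X : Set Nat.Primes) (ℓ : Nat.Primes) : 0 ≤ ind X ℓ :=
  Set.indicator_nonneg (fun _ _ => zero_le_one) ℓ

theorem ind_le_one (X : Set Nat.Primes) (ℓ : Nat.Primes) : ind X ℓ ≤ 1 :=
  Set.indicator_le_self' (f := fun _ => (1 : ℝ)) (fun _ _ => zero_le_one) ℓ

theorem abs_ind_le (X : Set Nat.Primes) (ℓ : Nat.Primes) : |ind X ℓ| ≤ 1 := by
  rw [abs_of_nonneg (ind_nonneg X ℓ)]; exact ind_le_one X ℓ

theorem summable_ind (X : Set Nat.Primes) {s : ℝ} (hs : 1 < s) :
    Summable (fun ℓ : Nat.Primes => ind X ℓ * ((ℓ : ℕ) : ℝ) ^ (-s)) :=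
  summable_pser (abs_ind_le X) hs

theorem pser_le {a b : Nat.Primes → ℝ} {s : ℝ} (h : ∀ ℓ, a ℓ ≤ b ℓ)
    (ha : Summable (fun ℓ : Nat.Primes => a ℓ * ((ℓ : ℕ) : ℝ) ^ (-s)))
    (hb : Summable (fun ℓ : Nat.Primes => b ℓ * ((ℓ : ℕ) : ℝ) ^ (-s))) :
    pser a s ≤ pser b s :=
  ha.tsum_le_tsum (fun ℓ => mul_le_mul_of_nonneg_right (h ℓ)
    (Real.rpow_nonneg (Nat.cast_nonneg _) _)) hb

/-- upper density at most `δ` -/
def UD (X : Set Nat.Primes) (δ : ℝ) : Prop :=
  ∃ C : ℝ, ∀ᶠ s in 𝓝[>] (1 : ℝ), pser (ind X) s ≤ δ * (-Real.log (s - 1)) + C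

theorem eventually_gt : ∀ᶠ s in 𝓝[>] (1 : ℝ), 1 < s := self_mem_nhdsWithin

theorem eventually_log : ∀ᶠ s in 𝓝[>] (1 : ℝ), 0 ≤ -Real.log (s - 1) := by
  have h : ∀ᶠ s in 𝓝[>] (1 : ℝ), s < 2 := eventually_nhdsWithin_of_eventually_nhds
    (eventually_lt_nhds (by norm_num))
  filter_upwards [eventually_gt, h] with s hs hs2
  have := Real.log_nonpos (x := s - 1) (by linarith) (by linarith)
  linarith

theorem UD.mono {X : Set Nat.Primes} {δ δ' : ℝ} (h : UD X δ) (hδ : δ ≤ δ') : UD X δ' := by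
  obtain ⟨C, hC⟩ := h
  refine ⟨C, ?_⟩
  filter_upwards [hC, eventually_log] with s hs hl
  exact hs.trans (add_le_add_left (mul_le_mul_of_nonneg_right hδ hl) C)

theorem UD.mono_set {X Y : Set Nat.Primes} {δ : ℝ} (h : UD Y δ) (hXY : X ⊆ Y) : UD X δ := by
  obtain ⟨C, hC⟩ := h
  refine ⟨C, ?_⟩
  filter_upwards [hC, eventually_gt] with s hs hs1
  refine le_trans (pser_le (fun ℓ => ?_) (summable_ind X hs1) (summable_ind Y hs1)) hs
  exact Set.indicator_le_indicator_of_subset hXY (fun _ => zero_le_one) ℓ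

theorem UD.union {X Y : Set Nat.Primes} {δ δ' : ℝ} (h : UD X δ) (h' : UD Y δ') :
    UD (X ∪ Y) (δ + δ') := by
  obtain ⟨C, hC⟩ := h
  obtain ⟨C', hC'⟩ := h'
  refine ⟨C + C', ?_⟩
  filter_upwards [hC, hC', eventually_gt] with s hs hs' hs1
  have h1 : pser (ind (X ∪ Y)) s ≤ pser (ind X) s + pser (ind Y) s := by
    have e : pser (ind X) s + pser (ind Y) s = pser (fun ℓ => ind X ℓ + ind Y ℓ) s := by
      unfold pser
      rw [← (summable_ind X hs1).tsum_add (summable_ind Y hs1)]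
      exact tsum_congr fun ℓ => by ring
    rw [e]
    refine pser_le (fun ℓ => ?_) (summable_ind _ hs1) ?_
    · unfold ind
      by_cases h1 : ℓ ∈ X
      · rw [Set.indicator_of_mem (Set.mem_union_left Y h1), Set.indicator_of_mem h1]
        linarith [ind_nonneg Y ℓ, show ind Y ℓ = Y.indicator (fun _ => (1 : ℝ)) ℓ from rfl]
      · by_cases h2 : ℓ ∈ Y
        · rw [Set.indicator_of_mem (Set.mem_union_right X h2), Set.indicator_of_mem h2,
            Set.indicator_of_notMem h1]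
          linarith
        · rw [Set.indicator_of_notMem (fun h => h.elim h1 h2), Set.indicator_of_notMem h1,
            Set.indicator_of_notMem h2]
          linarith
    · refine ((summable_ind X hs1).add (summable_ind Y hs1)).congr fun ℓ => ?_
      ring
  calc pser (ind (X ∪ Y)) s ≤ _ := h1
    _ ≤ (δ * (-Real.log (s - 1)) + C) + (δ' * (-Real.log (s - 1)) + C') := add_le_add hs hs'
    _ = _ := by ring

theorem UD.finite {X : Set Nat.Primes} (hX : X.Finite) : UD X 0 := by
  have h1 := pser_finite_isBigO (a := ind X) hX.toFinset fun ℓ hℓ =>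
    Set.indicator_of_notMem (fun h => hℓ (hX.mem_toFinset.mpr h)) _
  rw [isBigO_one_iff] at h1
  obtain ⟨C, hC⟩ := h1
  rw [eventually_map] at hC
  refine ⟨C, ?_⟩
  filter_upwards [hC] with s hs
  rw [zero_mul, zero_add]
  exact (le_abs_self _).trans hs

theorem UD.biUnion {ι : Type*} (s : Finset ι) (X : ι → Set Nat.Primes) {δ : ι → ℝ}
    (h : ∀ i ∈ s, UD (X i) (δ i)) : UD (⋃ i ∈ s, X i) (∑ i ∈ s, δ i) := by
  classical
  induction s using Finset.induction with
  | empty => simpa using UD.finite Set.finite_empty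
  | insert a s ha ih =>
    rw [Finset.sum_insert ha]
    refine ((h a (Finset.mem_insert_self a s)).union
      (ih fun i hi => h i (Finset.mem_insert_of_mem hi))).mono_set ?_
    rw [Finset.set_biUnion_insert]

/-- the sum of coefficients bounded by a series -/
theorem UD.of_le {X : Set Nat.Primes} {b : Nat.Primes → ℝ} {δ C : ℝ}
    (h : ∀ s : ℝ, 1 < s → s ≤ 2 → Summable (fun ℓ : Nat.Primes => b ℓ * ((ℓ : ℕ) : ℝ) ^ (-s)) ∧
      pser b s ≤ δ * (-Real.log (s - 1)) + C) (hb : ∀ ℓ, ind X ℓ ≤ b ℓ) : UD X δ := by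
  refine ⟨C, ?_⟩
  have h2 : ∀ᶠ s in 𝓝[>] (1 : ℝ), s < 2 := eventually_nhdsWithin_of_eventually_nhds
    (eventually_lt_nhds (by norm_num))
  filter_upwards [eventually_gt, h2] with s hs hs2
  obtain ⟨h3, h4⟩ := h s hs hs2.le
  exact (pser_le hb (summable_ind X hs) h3).trans h4

section Level

variable (L : IntermediateField ℚ Qbar) [FiniteDimensional ℚ L] [IsGalois ℚ L]

/-- a set closed under conjugation and changes of generator -/
structure Closed {G : Type*} [Group G] (D : Set G) : Prop where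
  gen : ∀ g h : G, Subgroup.zpowers h = Subgroup.zpowers g → g ∈ D → h ∈ D
  conj : ∀ g x : G, x ∈ D → g⁻¹ * x * g ∈ D

theorem Closed.comap {G H : Type*} [Group G] [Group H] (f : G →* H) {D : Set H} (h : Closed D) :
    Closed (f ⁻¹' D) := by
  refine ⟨fun g g' e hg => h.gen (f g) (f g') ?_ hg, fun g x hx => ?_⟩
  · rw [← MonoidHom.map_zpowers, ← MonoidHom.map_zpowers, e]
  · show f (g⁻¹ * x * g) ∈ D
    rw [map_mul, map_mul, map_inv]
    exact h.conj _ _ hx

open Classical in
theorem dens_level {D : Set (L ≃ₐ[ℚ] L)} (hD : Closed D) :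
    (fun s => pser (ind {ℓ | res L (frb ℓ) ∈ D}) s -
      (Nat.card D / Nat.card (L ≃ₐ[ℚ] L) : ℝ) * (-Real.log (s - 1)))
      =O[𝓝[>] 1] (fun _ => (1 : ℝ)) := by
  set T : Finset (Subgroup (L ≃ₐ[ℚ] L)) :=
    Finset.univ.filter (fun C => ∃ g ∈ D, Subgroup.zpowers g = C) with hT
  have hmem : ∀ x : L ≃ₐ[ℚ] L, x ∈ D ↔ Subgroup.zpowers x ∈ T := by
    intro x
    rw [hT, Finset.mem_filter]
    constructor
    · intro hx
      exact ⟨Finset.mem_univ _, x, hx, rfl⟩
    · rintro ⟨-, g, hg, e⟩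
      exact hD.gen g x e.symm hg
  have hcard : (Nat.card (L ≃ₐ[ℚ] L) : ℝ) ≠ 0 := by
    exact_mod_cast (Nat.card_pos (α := L ≃ₐ[ℚ] L)).ne'
  -- the sum of the `gen`
  have h1 : (Nat.card D : ℝ) = ∑ C ∈ T, (gen L C : ℝ) := by
    have h0 : Nat.card D = Nat.card {g : L ≃ₐ[ℚ] L // g ∈ D} := rfl
    rw [h0, ← Nat.cast_sum, Nat.cast_inj]
    unfold gen
    simp only [Nat.card_eq_fintype_card, Fintype.card_subtype]
    rw [← Finset.card_biUnion]
    · congr 1
      ext g
      simp only [Finset.mem_filter, Finset.mem_univ, true_and, Finset.mem_biUnion]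
      rw [hmem]
      constructor
      · intro h
        exact ⟨_, h, rfl⟩
      · rintro ⟨C, hC, h⟩
        rwa [h]
    · intro C _ C' _ hne
      rw [Function.onFun, Finset.disjoint_left]
      intro g hg hg'
      simp only [Finset.mem_filter, Finset.mem_univ, true_and] at hg hg'
      exact hne (hg.symm.trans hg')
  -- the sum of the `nC`
  have h2 : ∀ ℓ, ∑ C ∈ T, (nC L C ℓ : ℝ) =
      Nat.card (L ≃ₐ[ℚ] L) * ind {ℓ | res L (frb ℓ) ∈ D} ℓ := by
    intro ℓ
    have h3 : ∑ C ∈ T, nC L C ℓ =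
        (Finset.univ.filter (fun g : L ≃ₐ[ℚ] L => g⁻¹ * res L (frb ℓ) * g ∈ D)).card := by
      unfold nC
      simp only [Nat.card_eq_fintype_card, Fintype.card_subtype]
      rw [← Finset.card_biUnion]
      · congr 1
        ext g
        simp only [Finset.mem_filter, Finset.mem_univ, true_and, Finset.mem_biUnion]
        rw [hmem]
        constructor
        · rintro ⟨C, hC, h⟩
          rwa [h]
        · intro h
          exact ⟨_, h, rfl⟩
      · intro C _ C' _ hne
        rw [Function.onFun, Finset.disjoint_left]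
        intro g hg hg'
        simp only [Finset.mem_filter, Finset.mem_univ, true_and] at hg hg'
        exact hne (hg.symm.trans hg')
    rw [← Nat.cast_sum, h3]
    by_cases h : res L (frb ℓ) ∈ D
    · have h4 : (Finset.univ.filter (fun g : L ≃ₐ[ℚ] L => g⁻¹ * res L (frb ℓ) * g ∈ D)) =
          Finset.univ := Finset.filter_true_of_mem fun g _ => hD.conj g _ h
      rw [h4, Finset.card_univ, ← Nat.card_eq_fintype_card]
      unfold ind
      rw [Set.indicator_of_mem (show ℓ ∈ {ℓ | res L (frb ℓ) ∈ D} from h), mul_one]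
    · have h4 : (Finset.univ.filter (fun g : L ≃ₐ[ℚ] L => g⁻¹ * res L (frb ℓ) * g ∈ D)) =
          ∅ := Finset.filter_false_of_mem fun g _ hg => h (by
            have := hD.conj g⁻¹ _ hg
            have e : g⁻¹⁻¹ * (g⁻¹ * res L (frb ℓ) * g) * g⁻¹ = res L (frb ℓ) := by group
            rwa [e] at this)
      rw [h4, Finset.card_empty]
      unfold ind
      rw [Set.indicator_of_notMem (show ℓ ∉ {ℓ | res L (frb ℓ) ∈ D} from h)]
      simp
  have h5 : (fun s => ∑ C ∈ T, (pser (fun ℓ => (nC L C ℓ : ℝ)) s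
      - (gen L C : ℝ) * (-Real.log (s - 1)))) =O[𝓝[>] 1] (fun _ => (1 : ℝ)) :=
    IsBigO.fun_sum fun C _ => nser_isBigO L C
  refine (h5.const_mul_left ((Nat.card (L ≃ₐ[ℚ] L) : ℝ)⁻¹)).congr' ?_ EventuallyEq.rfl
  filter_upwards [eventually_gt] with s hs
  rw [Finset.sum_sub_distrib, ← Finset.sum_mul, ← h1]
  have h6 : ∑ C ∈ T, pser (fun ℓ => (nC L C ℓ : ℝ)) s =
      Nat.card (L ≃ₐ[ℚ] L) * pser (ind {ℓ | res L (frb ℓ) ∈ D}) s := by
    unfold pser
    rw [← Summable.tsum_finsetSum (fun C _ => summable_pser (nC_le L C) hs), ← tsum_mul_left]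
    refine tsum_congr fun ℓ => ?_
    rw [← Finset.sum_mul, h2, mul_assoc]
  rw [h6]
  field_simp

end Level

section Image

variable {G : Type*} [Group G] [Finite G] {ρ : GQ →* G}

open Classical in
/-- **Frobenius density theorem**, in the image of a representation -/
theorem dens (hsurj : Function.Surjective ρ)
    (hL : ∃ L : IntermediateField ℚ Qbar, FiniteDimensional ℚ L ∧
      ∀ σ : GQ, (∀ x ∈ L, σ x = x) → ρ σ = 1) {D : Set G} (hD : Closed D) :
    (fun s => pser (ind {ℓ | ρ (frb ℓ) ∈ D}) s -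
      (Nat.card D / Nat.card G : ℝ) * (-Real.log (s - 1)))
      =O[𝓝[>] 1] (fun _ => (1 : ℝ)) := by
  obtain ⟨L, hL0, hL⟩ := hL
  haveI := Frob.isGalois_Qbar
  obtain ⟨N, hN1, hN2, hLN⟩ : ∃ N : IntermediateField ℚ Qbar, FiniteDimensional ℚ N ∧
      IsGalois ℚ N ∧ L ≤ N := by
    haveI : Normal ℚ Qbar := inferInstance
    have h1 : Normal ℚ (IntermediateField.normalClosure ℚ L Qbar) := normalClosure.normal ℚ L Qbar
    refine ⟨IntermediateField.normalClosure ℚ L Qbar, inferInstance, ?_,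
      IntermediateField.le_normalClosure L⟩
    exact @IsGalois.mk _ _ _ _ _ inferInstance h1
  have hs : Function.Surjective (resHom N) :=
    AlgEquiv.restrictNormalHom_surjective (F := ℚ) (K₁ := N) Qbar
  have hker : (resHom N).ker ≤ ρ.ker := by
    intro σ hσ
    rw [MonoidHom.mem_ker] at hσ ⊢
    refine hL σ fun x hx => ?_
    have h1 := congrArg (fun f : N ≃ₐ[ℚ] N => ((f ⟨x, hLN hx⟩ : N) : Qbar)) hσ
    simp only [resHom_apply, coe_res, AlgEquiv.one_apply] at h1
    exact h1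
  set π : (N ≃ₐ[ℚ] N) →* G := MonoidHom.liftOfSurjective (resHom N) hs ⟨ρ, hker⟩ with hπ
  have hπρ : ∀ σ, π (res N σ) = ρ σ := fun σ =>
    MonoidHom.liftOfRightInverse_comp_apply (resHom N) _ _ ⟨ρ, hker⟩ σ
  have hπs : Function.Surjective π := by
    intro g
    obtain ⟨σ, rfl⟩ := hsurj g
    exact ⟨res N σ, hπρ σ⟩
  have h1 := dens_level N (hD.comap π)
  have e : {ℓ : Nat.Primes | res N (frb ℓ) ∈ π ⁻¹' D} = {ℓ | ρ (frb ℓ) ∈ D} := by
    ext ℓ
    show π (res N (frb ℓ)) ∈ D ↔ _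
    rw [hπρ]
    rfl
  rw [e] at h1
  -- the cardinalities
  haveI : Fintype G := Fintype.ofFinite G
  have hc : ∀ E : Set G, Nat.card (π ⁻¹' E) =
      Nat.card E * (Finset.univ.filter (fun x => π x = 1)).card := by
    intro E
    have h2 : Nat.card (π ⁻¹' E) = (Finset.univ.filter (fun x => π x ∈ E)).card := by
      have : Nat.card (π ⁻¹' E) = Nat.card {x // π x ∈ E} := rfl
      rw [this, Nat.card_eq_fintype_card, Fintype.card_subtype]
    have h3 : Nat.card E = (Finset.univ.filter (fun x => x ∈ E)).card := by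
      have : Nat.card E = Nat.card {x // x ∈ E} := rfl
      rw [this, Nat.card_eq_fintype_card, Fintype.card_subtype]
    rw [h2, h3, Finset.card_eq_sum_card_fiberwise (f := π)
      (t := Finset.univ.filter (fun x => x ∈ E)) (fun x hx => by simpa using hx)]
    rw [Finset.sum_const_nat (m := (Finset.univ.filter (fun x => π x = 1)).card)]
    intro y hy
    rw [Finset.mem_filter] at hy
    rw [Finset.filter_filter]
    have h4 := MonoidHom.card_fiber_eq_of_mem_range π (hπs y) ⟨1, map_one π⟩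
    rw [← h4]
    congr 1
    ext x
    simp only [Finset.mem_filter, Finset.mem_univ, true_and]
    constructor
    · rintro ⟨-, h⟩
      exact h
    · intro h
      exact ⟨by rw [h]; exact hy.2, h⟩
  have hk : (((Finset.univ.filter (fun x => π x = 1)).card : ℕ) : ℝ) ≠ 0 := by
    have : 0 < (Finset.univ.filter (fun x => π x = 1)).card :=
      Finset.card_pos.mpr ⟨1, by simp⟩
    exact_mod_cast this.ne'
  have h2 : (Nat.card (π ⁻¹' D) / Nat.card (N ≃ₐ[ℚ] N) : ℝ) = Nat.card D / Nat.card G := by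
    have h3 : Nat.card (N ≃ₐ[ℚ] N) =
        Nat.card G * (Finset.univ.filter (fun x => π x = 1)).card := by
      have h4 := hc Set.univ
      rw [Set.preimage_univ, Nat.card_univ, Nat.card_univ] at h4
      exact h4
    rw [hc D, h3]
    push_cast
    rw [mul_div_mul_right _ _ hk]
  rw [h2] at h1
  exact h1

theorem ud_frob (hsurj : Function.Surjective ρ)
    (hL : ∃ L : IntermediateField ℚ Qbar, FiniteDimensional ℚ L ∧
      ∀ σ : GQ, (∀ x ∈ L, σ x = x) → ρ σ = 1) {D : Set G} (hD : Closed D) :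
    UD {ℓ | ρ (frb ℓ) ∈ D} (Nat.card D / Nat.card G) := by
  have h := dens hsurj hL hD
  rw [isBigO_one_iff] at h
  obtain ⟨C, hC⟩ := h
  rw [eventually_map] at hC
  refine ⟨C, ?_⟩
  filter_upwards [hC] with s hs
  have := (le_abs_self _).trans hs
  linarith

theorem card_le_of_ud (hsurj : Function.Surjective ρ)
    (hL : ∃ L : IntermediateField ℚ Qbar, FiniteDimensional ℚ L ∧
      ∀ σ : GQ, (∀ x ∈ L, σ x = x) → ρ σ = 1) {D : Set G} (hD : Closed D) {X : Set Nat.Primes}
    {δ : ℝ} (hX : UD X δ) (hDX : {ℓ | ρ (frb ℓ) ∈ D} ⊆ X) :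
    (Nat.card D : ℝ) ≤ δ * Nat.card G := by
  have hG : (0 : ℝ) < Nat.card G := by exact_mod_cast Nat.card_pos (α := G)
  by_contra hcon
  push Not at hcon
  have h := dens hsurj hL hD
  obtain ⟨C', hC'⟩ := hX.mono_set hDX
  refine lam_not_isBigO ?_
  have hpos : 0 < (Nat.card D / Nat.card G : ℝ) - δ := by
    rw [sub_pos, lt_div_iff₀ hG]
    exact hcon
  rw [isBigO_one_iff] at h ⊢
  obtain ⟨C, hC⟩ := h
  rw [eventually_map] at hC
  refine ⟨(C + C') / ((Nat.card D / Nat.card G : ℝ) - δ), ?_⟩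
  rw [eventually_map]
  filter_upwards [hC, hC', eventually_log] with s hs hs' hl
  rw [Real.norm_of_nonneg hl, le_div_iff₀ hpos]
  have h1 := (abs_le.mp hs).1
  nlinarith [h1, hs']

end Image

end Fermat.Agent.DSD
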