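import Mathlib

/-!
# Counting elements of finite linear groups with prescribed eigenvalue ratio
-/

set_option autoImplicit false
set_option linter.unusedSectionVars false
set_option linter.style.haveILetI false
set_option linter.unusedVariables false

noncomputable section

namespace Fermat.Agent.DSD

open Matrix

section Count

variable {F : Type*} [Field F]

/-- primitive values of a character -/
theorem card_prim_le {A : Type*} [Group A] [Finite A] (ψ : A →* Fˣ) {n : ℕ} (hn : n ≠ 0) :
    n * Nat.card {a : A // IsPrimitiveRoot (ψ a) n} ≤ n.totient * Nat.card A := by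
  classical
  haveI : Fintype A := Fintype.ofFinite A
  haveI : NeZero n := ⟨hn⟩
  by_cases hne : ∃ a, IsPrimitiveRoot (ψ a) n
  swap
  · have : IsEmpty {a : A // IsPrimitiveRoot (ψ a) n} := ⟨fun a => hne ⟨a.1, a.2⟩⟩
    rw [Nat.card_of_isEmpty, mul_zero]
    exact Nat.zero_le _
  obtain ⟨a₀, ha₀⟩ := hne
  have hroot : IsPrimitiveRoot ((ψ a₀ : Fˣ) : F) n := IsPrimitiveRoot.coe_units_iff.mpr ha₀
  set c := (Finset.univ.filter (fun a => ψ a = 1)).card with hc
  have hfib : ∀ ζ : Fˣ, ζ ∈ Set.range ψ → (Finset.univ.filter (fun a => ψ a = ζ)).card = c :=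
    fun ζ hζ => MonoidHom.card_fiber_eq_of_mem_range ψ hζ ⟨1, map_one ψ⟩
  -- all primitive roots
  have h1 : Nat.card {a : A // IsPrimitiveRoot (ψ a) n} = n.totient * c := by
    rw [Nat.card_eq_fintype_card, Fintype.card_subtype]
    have hcard : (primitiveRoots n F).card = n.totient := hroot.card_primitiveRoots
    rw [Finset.card_eq_sum_card_fiberwise (f := fun a => ((ψ a : Fˣ) : F))
      (t := primitiveRoots n F) (fun a ha => by
      rw [Finset.mem_coe, Finset.mem_filter] at ha
      rw [Finset.mem_coe, mem_primitiveRoots (Nat.pos_of_ne_zero hn)]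
      exact IsPrimitiveRoot.coe_units_iff.mpr ha.2)]
    rw [Finset.sum_const_nat (m := c), hcard]
    intro ζ hζ
    rw [mem_primitiveRoots (Nat.pos_of_ne_zero hn)] at hζ
    obtain ⟨i, -, e⟩ := hroot.eq_pow_of_pow_eq_one hζ.pow_eq_one
    rw [Finset.filter_filter, ← hfib (ψ a₀ ^ i) ⟨a₀ ^ i, map_pow _ _ _⟩]
    congr 1
    ext a
    simp only [Finset.mem_filter, Finset.mem_univ, true_and]
    rw [← e, ← Units.val_pow_eq_pow_val, Units.val_inj]
    constructor
    · rintro ⟨-, h⟩
      exact h
    · intro h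
      refine ⟨?_, h⟩
      rw [← IsPrimitiveRoot.coe_units_iff, h, Units.val_pow_eq_pow_val, e]
      exact hζ
  have h2 : n * c ≤ Nat.card A := by
    rw [Nat.card_eq_fintype_card, ← Finset.card_univ]
    have h3 : (Finset.univ.image fun i : Fin n => ψ a₀ ^ (i : ℕ)).card = n := by
      rw [Finset.card_image_of_injective, Finset.card_fin]
      intro i j hij
      exact Fin.ext (ha₀.pow_inj i.2 j.2 hij)
    rw [← h3]
    have h4 : (Finset.univ.filter fun a => ψ a ∈ Finset.univ.image
        fun i : Fin n => ψ a₀ ^ (i : ℕ)).card =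
        (Finset.univ.image fun i : Fin n => ψ a₀ ^ (i : ℕ)).card * c := by
      rw [Finset.card_eq_sum_card_fiberwise (f := ψ) (t := Finset.univ.image
        fun i : Fin n => ψ a₀ ^ (i : ℕ)) (fun a ha => by
          rw [Finset.mem_coe, Finset.mem_filter] at ha
          exact ha.2)]
      rw [Finset.sum_const_nat (m := c)]
      intro ζ hζ
      rw [Finset.filter_filter, ← hfib ζ (by
        obtain ⟨i, -, rfl⟩ := Finset.mem_image.mp hζ
        exact ⟨a₀ ^ (i : ℕ), map_pow _ _ _⟩)]
      congr 1
      ext a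
      simp only [Finset.mem_filter, Finset.mem_univ, true_and]
      constructor
      · rintro ⟨-, h⟩
        exact h
      · intro h
        exact ⟨by rw [h]; exact hζ, h⟩
    rw [← h4]
    exact Finset.card_le_univ _
  rw [h1]
  calc n * (n.totient * c) = n.totient * (n * c) := by ring
    _ ≤ _ := Nat.mul_le_mul_left _ h2

/-- nontrivial characters are nontrivial at half of the elements -/
theorem card_ne_one {A : Type*} [Group A] [Finite A] (φ : A →* Fˣ) {x : A} (hx : φ x ≠ 1) :
    Nat.card A ≤ 2 * Nat.card {a : A // φ a ≠ 1} := by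
  classical
  haveI : Fintype A := Fintype.ofFinite A
  have h1 : Nat.card {a : A // φ a ≠ 1} = (Finset.univ.filter (fun a => φ a ≠ 1)).card := by
    rw [Nat.card_eq_fintype_card, Fintype.card_subtype]
  have h2 : (Finset.univ.filter (fun a => φ a = 1)).card ≤
      (Finset.univ.filter (fun a => φ a ≠ 1)).card := by
    refine Finset.card_le_card_of_injOn (fun a => x * a) (fun a ha => ?_)
      (fun a _ b _ h => mul_left_cancel h)
    simp only [Finset.coe_filter, Finset.mem_univ, true_and, Set.mem_ofPred_eq] at ha ⊢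
    rw [map_mul, ha, mul_one]
    exact hx
  have h3 := Finset.card_filter_add_card_filter_not (s := (Finset.univ : Finset A))
    (fun a => φ a = 1)
  rw [h1, Nat.card_eq_fintype_card, ← Finset.card_univ, ← h3]
  simp only [ne_eq] at h2 ⊢
  omega

end Count

section Idem

variable {F : Type*} [Field F] {e h : Matrix (Fin 2) (Fin 2) F}

/-- a rank one idempotent -/
structure Idem (e : Matrix (Fin 2) (Fin 2) F) : Prop where
  idem : e * e = e
  tr : e.trace = 1
  det : e.det = 0

theorem mul_mul_eq (h1 : e.det = 0) : e * h * e = (h * e).trace • e := by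
  rw [det_fin_two] at h1
  ext i j
  fin_cases i <;> fin_cases j <;>
    simp [Matrix.mul_apply, Fin.sum_univ_two, trace_fin_two, smul_eq_mul] <;>
    [linear_combination (-h 1 1) * h1; linear_combination (h 0 1) * h1;
      linear_combination (h 1 0) * h1; linear_combination (-h 0 0) * h1]

theorem Idem.compl (he : Idem e) : Idem (1 - e) := by
  refine ⟨?_, ?_, ?_⟩
  · rw [sub_mul, mul_sub, mul_sub, he.idem]
    simp
  · rw [trace_sub, he.tr, trace_one, Fintype.card_fin]
    norm_num
  · have h1 := he.tr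
    have h2 := he.det
    rw [trace_fin_two] at h1
    rw [det_fin_two] at h2 ⊢
    simp only [Matrix.sub_apply, one_apply_eq, ne_eq, zero_ne_one, not_false_eq_true, one_apply_ne,
      one_ne_zero]
    linear_combination h2 - h1

theorem Idem.mul_eq (he : Idem e) (hc : h * e = e * h) : h * e = (h * e).trace • e := by
  rw [← mul_mul_eq he.det, ← hc, mul_assoc, he.idem]

/-- the decomposition of a commuting matrix -/
theorem Idem.decomp (he : Idem e) (hc : h * e = e * h) :
    h = (h * e).trace • e + (h * (1 - e)).trace • (1 - e) := by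
  rw [← he.mul_eq hc, ← he.compl.mul_eq (by rw [mul_sub, sub_mul, hc, mul_one, one_mul])]
  rw [← mul_add, add_sub_cancel, mul_one]

theorem Idem.det_eq (he : Idem e) (a b : F) : (a • e + b • (1 - e)).det = a * b := by
  have h1 := he.tr
  have h2 := he.det
  rw [trace_fin_two] at h1
  rw [det_fin_two] at h2 ⊢
  simp only [Matrix.add_apply, Matrix.smul_apply, Matrix.sub_apply, one_apply_eq, ne_eq, zero_ne_one,
    not_false_eq_true, one_apply_ne, one_ne_zero, smul_eq_mul]
  linear_combination (a - b) ^ 2 * h2 + b * (a - b) * h1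

theorem Idem.mul_mul (he : Idem e) (a b a' b' : F) :
    (a • e + b • (1 - e)) * (a' • e + b' • (1 - e)) = (a * a') • e + (b * b') • (1 - e) := by
  have h1 : e * (1 - e) = 0 := by rw [mul_sub, mul_one, he.idem, sub_self]
  have h2 : (1 - e) * e = 0 := by rw [sub_mul, one_mul, he.idem, sub_self]
  rw [add_mul, mul_add, mul_add, smul_mul_smul_comm, smul_mul_smul_comm, smul_mul_smul_comm,
    smul_mul_smul_comm, h1, h2, he.idem, he.compl.idem]
  simp

theorem Idem.trace_eq (he : Idem e) (a b : F) : (a • e + b • (1 - e)).trace = a + b := by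
  rw [trace_add, trace_smul, trace_smul, he.tr, he.compl.tr]
  simp

theorem Idem.comm (he : Idem e) (a b : F) :
    (a • e + b • (1 - e)) * e = e * (a • e + b • (1 - e)) := by
  rw [add_mul, mul_add, smul_mul_assoc, smul_mul_assoc, mul_smul_comm, mul_smul_comm, sub_mul,
    mul_sub, one_mul, mul_one]

theorem Idem.trace_mul (he : Idem e) (a b : F) : ((a • e + b • (1 - e)) * e).trace = a := by
  rw [add_mul, smul_mul_assoc, smul_mul_assoc, he.idem, sub_mul, one_mul, he.idem, sub_self,
    smul_zero, add_zero, trace_smul, he.tr, smul_eq_mul, mul_one]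

/-- the eigenprojection -/
theorem exists_idem {x : Matrix (Fin 2) (Fin 2) F} {a b : F} (hab : a ≠ b)
    (htr : x.trace = a + b) (hdet : x.det = a * b) :
    ∃ e, Idem e ∧ x = a • e + b • (1 - e) := by
  have h0 : a - b ≠ 0 := sub_ne_zero.mpr hab
  set e := (a - b)⁻¹ • (x - b • (1 : Matrix (Fin 2) (Fin 2) F)) with he
  have hCH : x * x = (a + b) • x - (a * b) • (1 : Matrix (Fin 2) (Fin 2) F) := by
    rw [trace_fin_two] at htr
    rw [det_fin_two] at hdet
    ext i j
    fin_cases i <;> fin_cases j <;>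
      simp [Matrix.mul_apply, Fin.sum_univ_two, smul_eq_mul] <;>
      [linear_combination x 0 0 * htr - hdet; linear_combination x 0 1 * htr;
        linear_combination x 1 0 * htr; linear_combination x 1 1 * htr - hdet]
  refine ⟨e, ⟨?_, ?_, ?_⟩, ?_⟩
  · have e1 : (x - b • (1 : Matrix (Fin 2) (Fin 2) F)) * (x - b • 1) = (a - b) • (x - b • 1) := by
      rw [sub_mul, mul_sub, mul_sub, hCH]
      ext i j
      simp only [Matrix.mul_smul, Matrix.smul_mul, mul_one, one_mul, Matrix.sub_apply,
        Matrix.smul_apply, smul_eq_mul]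
      ring
    rw [he, smul_mul_smul_comm, e1, smul_smul, mul_assoc, inv_mul_cancel₀ h0, mul_one]
  · rw [he, trace_smul, trace_sub, trace_smul, htr, trace_one, Fintype.card_fin]
    simp only [smul_eq_mul, Nat.cast_ofNat]
    field_simp
    ring
  · rw [he, det_smul, Fintype.card_fin]
    have : (x - b • (1 : Matrix (Fin 2) (Fin 2) F)).det = 0 := by
      rw [trace_fin_two] at htr
      rw [det_fin_two] at hdet ⊢
      simp only [Matrix.sub_apply, Matrix.smul_apply, one_apply_eq, ne_eq, zero_ne_one, not_false_eq_true,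
        one_apply_ne, one_ne_zero, smul_eq_mul]
      linear_combination hdet - b * htr
    rw [this, mul_zero]
  · rw [he]
    ext i j
    simp only [Matrix.add_apply, Matrix.smul_apply, Matrix.sub_apply, smul_eq_mul]
    field_simp
    ring

end Idem

section Ratio

variable {F : Type*} [Field F]

/-- `r + r⁻¹`, `r` the ratio of the eigenvalues -/
def rt (x : Matrix (Fin 2) (Fin 2) F) : F := x.trace ^ 2 / x.det - 2

/-- the ratios of the eigenvalues -/
def IsRatio (x : Matrix (Fin 2) (Fin 2) F) (r : F) : Prop := r ^ 2 - rt x * r + 1 = 0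

theorem isRatio_iff {x : Matrix (Fin 2) (Fin 2) F} {a b : F} (ha : a ≠ 0) (hb : b ≠ 0)
    (htr : x.trace = a + b) (hdet : x.det = a * b) {r : F} :
    IsRatio x r ↔ r = a / b ∨ r = b / a := by
  have h : r ^ 2 - rt x * r + 1 = (r - a / b) * (r - b / a) := by
    rw [rt, htr, hdet]
    field_simp
    ring
  rw [IsRatio, h, mul_eq_zero, sub_eq_zero, sub_eq_zero]

/-- eigenvalues -/
theorem exists_eig [IsAlgClosed F] (x : Matrix (Fin 2) (Fin 2) F) :
    ∃ a b : F, x.trace = a + b ∧ x.det = a * b := by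
  obtain ⟨a, ha⟩ := IsAlgClosed.exists_root (Polynomial.X ^ 2 - Polynomial.C x.trace *
    Polynomial.X + Polynomial.C x.det : Polynomial F) (by
      have : (Polynomial.X ^ 2 - Polynomial.C x.trace * Polynomial.X + Polynomial.C x.det :
        Polynomial F).natDegree = 2 := by compute_degree!
      intro h
      have := Polynomial.natDegree_eq_of_degree_eq_some (n := 0) h
      omega)
  refine ⟨a, x.trace - a, by ring, ?_⟩
  simp only [Polynomial.IsRoot, Polynomial.eval_add, Polynomial.eval_sub, Polynomial.eval_pow,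
    Polynomial.eval_X, Polynomial.eval_mul, Polynomial.eval_C] at ha
  linear_combination ha

theorem isRatio_inv {x : Matrix (Fin 2) (Fin 2) F} {r : F} (h : IsRatio x r) :
    r ≠ 0 ∧ IsRatio x r⁻¹ := by
  have h0 : r ≠ 0 := by
    rintro rfl
    unfold IsRatio at h
    simp at h
  refine ⟨h0, ?_⟩
  unfold IsRatio at h ⊢
  field_simp
  linear_combination h

end Ratio

section LemmaT

variable {F : Type*} [Field F]

/-- the coordinates of the commuting elements -/
def chi {e : Matrix (Fin 2) (Fin 2) F} (he : Idem e) (C : Subgroup (GL (Fin 2) F))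
    (hC : ∀ y ∈ C, ((y : GL (Fin 2) F) : Matrix (Fin 2) (Fin 2) F) * e =
      e * ((y : GL (Fin 2) F) : Matrix (Fin 2) (Fin 2) F)) : C →* F where
  toFun y := (((y : GL (Fin 2) F) : Matrix (Fin 2) (Fin 2) F) * e).trace
  map_one' := by
    simp [he.tr]
  map_mul' y z := by
    have hy := he.decomp (hC y y.2)
    have hz := he.decomp (hC z z.2)
    set a := (((y : GL (Fin 2) F) : Matrix (Fin 2) (Fin 2) F) * e).trace
    set b := (((z : GL (Fin 2) F) : Matrix (Fin 2) (Fin 2) F) * e).trace
    rw [Subgroup.coe_mul, GeneralLinearGroup.coe_mul, hy, hz, he.mul_mul, he.trace_mul]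

variable [IsAlgClosed F] (G : Subgroup (GL (Fin 2) F)) [Finite G] {M n : ℕ}

/-- the regular elements with `r ^ M = 1` -/
def Reg (G : Subgroup (GL (Fin 2) F)) (M : ℕ) (g : G) : Prop :=
  ∃ r : F, r ≠ 1 ∧ IsRatio ((g : GL (Fin 2) F) : Matrix (Fin 2) (Fin 2) F) r ∧ r ^ M = 1

/-- the elements whose ratio is primitive -/
def Pri (G : Subgroup (GL (Fin 2) F)) (M n : ℕ) (g : G) : Prop :=
  ∃ r : F, IsRatio ((g : GL (Fin 2) F) : Matrix (Fin 2) (Fin 2) F) r ∧
    IsPrimitiveRoot (r ^ (M / n)) n

variable {G}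

theorem Pri.reg (hn : 1 < n) (hM : n ∣ M) {g : G} (h : Pri G M n g) : Reg G M g := by
  obtain ⟨r, h1, h2⟩ := h
  refine ⟨r, ?_, h1, ?_⟩
  · rintro rfl
    rw [one_pow] at h2
    exact hn.ne' (h2.unique IsPrimitiveRoot.one)
  · rw [← Nat.div_mul_cancel hM, pow_mul, h2.pow_eq_one]

/-- the eigenprojection of a regular element -/
theorem Reg.exists_idem {g : G} (h : Reg G M g) :
    ∃ (e : Matrix (Fin 2) (Fin 2) F) (a b : F), Idem e ∧ a ≠ 0 ∧ b ≠ 0 ∧ a ≠ b ∧
      ((g : GL (Fin 2) F) : Matrix (Fin 2) (Fin 2) F) = a • e + b • (1 - e) := by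
  obtain ⟨r, hr1, hr, -⟩ := h
  obtain ⟨a, b, htr, hdet⟩ := exists_eig ((g : GL (Fin 2) F) : Matrix (Fin 2) (Fin 2) F)
  have hd : ((g : GL (Fin 2) F) : Matrix (Fin 2) (Fin 2) F).det ≠ 0 := by
    have := (Matrix.isUnit_iff_isUnit_det _).mp (Units.isUnit (g : GL (Fin 2) F))
    exact this.ne_zero
  rw [hdet] at hd
  have ha : a ≠ 0 := left_ne_zero_of_mul hd
  have hb : b ≠ 0 := right_ne_zero_of_mul hd
  have hab : a ≠ b := by
    rintro rfl
    rw [isRatio_iff ha hb htr hdet, div_self ha, or_self] at hr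
    exact hr1 hr
  obtain ⟨e, he, hx⟩ := DSD.exists_idem hab htr hdet
  exact ⟨e, a, b, he, ha, hb, hab, hx⟩

/-- commuting with a regular element -/
theorem comm_idem {e x y : Matrix (Fin 2) (Fin 2) F} {a b : F} (hab : a ≠ b)
    (hx : x = a • e + b • (1 - e)) (h : y * x = x * y) : y * e = e * y := by
  have h0 : a - b ≠ 0 := sub_ne_zero.mpr hab
  have h1 : e = (a - b)⁻¹ • (x - b • (1 : Matrix (Fin 2) (Fin 2) F)) := by
    rw [hx]
    ext i j
    simp only [Matrix.add_apply, Matrix.smul_apply, Matrix.sub_apply, smul_eq_mul]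
    field_simp
    ring
  rw [h1, mul_smul_comm, smul_mul_assoc, mul_sub, sub_mul, h, mul_smul_comm, smul_mul_assoc,
    mul_one, one_mul]

theorem comm_trans {x y g : G} (hg : Reg G M g) (h1 : x * g = g * x) (h2 : y * g = g * y) :
    x * y = y * x := by
  obtain ⟨e, a, b, he, ha, hb, hab, hx⟩ := hg.exists_idem
  have key : ∀ z : G, z * g = g * z → ((z : GL (Fin 2) F) : Matrix (Fin 2) (Fin 2) F) * e =
      e * ((z : GL (Fin 2) F) : Matrix (Fin 2) (Fin 2) F) := by
    intro z hz
    refine comm_idem hab hx ?_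
    have := congrArg (fun w : G => ((w : GL (Fin 2) F) : Matrix (Fin 2) (Fin 2) F)) hz
    simpa using this
  apply Subtype.ext
  apply Units.ext
  rw [Subgroup.coe_mul, Subgroup.coe_mul, GeneralLinearGroup.coe_mul, GeneralLinearGroup.coe_mul,
    he.decomp (key x h1), he.decomp (key y h2), he.mul_mul, he.mul_mul]
  congr 2 <;> ring

open Classical in
/-- the count in one torus -/
theorem count_torus (hn : 1 < n) (hM : n ∣ M) {x : G} (hx : Reg G M x) :
    n * Nat.card {g : G // Pri G M n g ∧ g * x = x * g} ≤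
      2 * n.totient * Nat.card {g : G // Reg G M g ∧ g * x = x * g} := by
  obtain ⟨e, a, b, he, ha, hb, hab, hxe⟩ := hx.exists_idem
  set C : Subgroup (GL (Fin 2) F) := G ⊓ Subgroup.centralizer {(x : GL (Fin 2) F)} with hC
  have hCx : ∀ y ∈ C, y * (x : GL (Fin 2) F) = (x : GL (Fin 2) F) * y := by
    intro y hy
    have := (Subgroup.mem_centralizer_iff.mp hy.2) (x : GL (Fin 2) F) rfl
    exact this.symm
  have hCe : ∀ y ∈ C, ((y : GL (Fin 2) F) : Matrix (Fin 2) (Fin 2) F) * e =
      e * ((y : GL (Fin 2) F) : Matrix (Fin 2) (Fin 2) F) := by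
    intro y hy
    refine comm_idem hab hxe ?_
    have := congrArg (fun w : GL (Fin 2) F => (w : Matrix (Fin 2) (Fin 2) F)) (hCx y hy)
    simpa using this
  have hCe' : ∀ y ∈ C, ((y : GL (Fin 2) F) : Matrix (Fin 2) (Fin 2) F) * (1 - e) =
      (1 - e) * ((y : GL (Fin 2) F) : Matrix (Fin 2) (Fin 2) F) := by
    intro y hy
    rw [mul_sub, sub_mul, hCe y hy, mul_one, one_mul]
  set φ : C →* Fˣ := (chi he C hCe).toHomUnits / (chi he.compl C hCe').toHomUnits with hφ
  haveI : Finite C := Finite.of_injective (fun y : C => (⟨y, y.2.1⟩ : G)) fun y z h =>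
    Subtype.ext (congrArg (fun w : G => (w : GL (Fin 2) F)) h)
  -- ratios
  have hrat : ∀ (y : C) (r : F), IsRatio (((y : GL (Fin 2) F)) : Matrix (Fin 2) (Fin 2) F) r ↔
      r = (φ y : Fˣ) ∨ r = ((φ y)⁻¹ : Fˣ) := by
    intro y r
    have hd := he.decomp (hCe y y.2)
    have h1 : chi he C hCe y ≠ 0 := by
      have := ((chi he C hCe).toHomUnits y).ne_zero
      rwa [MonoidHom.coe_toHomUnits] at this
    have h2 : chi he.compl C hCe' y ≠ 0 := by
      have := ((chi he.compl C hCe').toHomUnits y).ne_zero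
      rwa [MonoidHom.coe_toHomUnits] at this
    have htr : ((y : GL (Fin 2) F) : Matrix (Fin 2) (Fin 2) F).trace =
        chi he C hCe y + chi he.compl C hCe' y := by
      conv_lhs => rw [hd]
      rw [he.trace_eq]
      rfl
    have hdet : ((y : GL (Fin 2) F) : Matrix (Fin 2) (Fin 2) F).det =
        chi he C hCe y * chi he.compl C hCe' y := by
      conv_lhs => rw [hd]
      rw [he.det_eq]
      rfl
    rw [isRatio_iff h1 h2 htr hdet, hφ]
    simp
  set A : Subgroup C := (φ ^ M).ker with hA
  have hAmem : ∀ y : C, y ∈ A ↔ φ y ^ M = 1 := fun y => by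
    rw [hA, MonoidHom.mem_ker]; rfl
  set φA : A →* Fˣ := φ.comp A.subtype with hφA
  have hcoe : ∀ y : G, y * x = x * y → (y : GL (Fin 2) F) ∈ C := by
    intro y hy
    refine ⟨y.2, Subgroup.mem_centralizer_iff.mpr ?_⟩
    rintro z rfl
    exact (congrArg (fun w : G => (w : GL (Fin 2) F)) hy).symm
  -- membership
  have hreg : ∀ (y : G) (hy : y * x = x * y), Reg G M y ↔
      (⟨y, hcoe y hy⟩ : C) ∈ A ∧ φ ⟨y, hcoe y hy⟩ ≠ 1 := by
    intro y hy
    rw [hAmem]
    constructor
    · rintro ⟨r, hr1, hr, hrM⟩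
      rcases (hrat ⟨y, hcoe y hy⟩ r).mp hr with h | h
      · rw [h] at hr1 hrM
        refine ⟨Units.ext (by simpa using hrM), fun h1 => hr1 (by rw [h1]; rfl)⟩
      · rw [h] at hr1 hrM
        refine ⟨?_, fun h1 => hr1 (by rw [h1]; simp)⟩
        have h3 : ((φ ⟨y, hcoe y hy⟩)⁻¹ : Fˣ) ^ M = 1 := Units.ext (by simpa using hrM)
        rw [inv_pow, inv_eq_one] at h3
        exact h3
    · rintro ⟨h1, h2⟩
      refine ⟨(φ ⟨y, hcoe y hy⟩ : Fˣ), fun h => h2 (Units.ext h),
        (hrat ⟨y, hcoe y hy⟩ _).mpr (Or.inl rfl), ?_⟩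
      rw [← Units.val_pow_eq_pow_val, h1, Units.val_one]
  have hpri : ∀ (y : G) (hy : y * x = x * y), Pri G M n y →
      IsPrimitiveRoot (φ ⟨y, hcoe y hy⟩ ^ (M / n)) n := by
    rintro y hy ⟨r, hr, hrp⟩
    rcases (hrat ⟨y, hcoe y hy⟩ r).mp hr with h | h
    · rw [h, ← Units.val_pow_eq_pow_val, IsPrimitiveRoot.coe_units_iff] at hrp
      exact hrp
    · rw [h, ← Units.val_pow_eq_pow_val, IsPrimitiveRoot.coe_units_iff, inv_pow,
        IsPrimitiveRoot.inv_iff] at hrp
      exact hrp
  -- the counts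
  have h1 := card_prim_le (φA ^ (M / n)) (n := n) (by omega)
  have hxC : (x : GL (Fin 2) F) ∈ C := hcoe x rfl
  have hxA := (hreg x rfl).mp hx
  have h2 := card_ne_one φA (x := ⟨⟨x, hxC⟩, hxA.1⟩) hxA.2
  have h3 : Nat.card {g : G // Pri G M n g ∧ g * x = x * g} ≤
      Nat.card {a : A // IsPrimitiveRoot ((φA ^ (M / n)) a) n} := by
    refine Nat.card_le_card_of_injective (fun g => ⟨⟨⟨g.1, hcoe g.1 g.2.2⟩,
      ((hreg g.1 g.2.2).mp (g.2.1.reg hn hM)).1⟩, hpri g.1 g.2.2 g.2.1⟩) ?_
    intro g g' h
    have := congrArg (fun w => (((w : A) : C) : GL (Fin 2) F)) (congrArg Subtype.val h)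
    exact Subtype.ext (Subtype.ext this)
  have h4 : Nat.card {a : A // φA a ≠ 1} ≤ Nat.card {g : G // Reg G M g ∧ g * x = x * g} := by
    have hcomm : ∀ a : C, (⟨a, a.2.1⟩ : G) * x = x * ⟨a, a.2.1⟩ := fun a =>
      Subtype.ext (hCx a a.2)
    refine Nat.card_le_card_of_injective (fun a => ⟨⟨((a.1 : A) : C), ((a.1 : A) : C).2.1⟩,
      (hreg _ (hcomm _)).mpr ⟨a.1.2, a.2⟩, hcomm _⟩) ?_
    intro a a' h
    have := congrArg (fun w : G => (w : GL (Fin 2) F)) (congrArg Subtype.val h)
    exact Subtype.ext (Subtype.ext (Subtype.ext this))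
  calc n * Nat.card {g : G // Pri G M n g ∧ g * x = x * g}
      ≤ n * Nat.card {a : A // IsPrimitiveRoot ((φA ^ (M / n)) a) n} := Nat.mul_le_mul_left _ h3
    _ ≤ n.totient * Nat.card A := h1
    _ ≤ n.totient * (2 * Nat.card {a : A // φA a ≠ 1}) := Nat.mul_le_mul_left _ h2
    _ ≤ n.totient * (2 * Nat.card {g : G // Reg G M g ∧ g * x = x * g}) :=
        Nat.mul_le_mul_left _ (Nat.mul_le_mul_left _ h4)
    _ = _ := by ring

open Classical in
/-- **Lemma T** -/
theorem lemmaT (hn : 1 < n) (hM : n ∣ M) :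
    n * Nat.card {g : G // Pri G M n g} ≤ 2 * n.totient * Nat.card G := by
  haveI : Fintype G := Fintype.ofFinite G
  set U : Finset G := Finset.univ.filter (Reg G M) with hU
  set S : Finset G := Finset.univ.filter (Pri G M n) with hS
  set f : G → Finset G := fun x => U.filter (fun y => y * x = x * y) with hf
  have hSU : S ⊆ U := by
    intro g hg
    rw [hS, Finset.mem_filter] at hg
    rw [hU, Finset.mem_filter]
    exact ⟨hg.1, hg.2.reg hn hM⟩
  have hfe : ∀ g x : G, Reg G M g → Reg G M x → (f g = f x ↔ g * x = x * g) := by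
    intro g x hg hx
    constructor
    · intro h
      have h1 : g ∈ f g := by
        rw [hf]
        simp only [Finset.mem_filter]
        exact ⟨by rw [hU, Finset.mem_filter]; exact ⟨Finset.mem_univ _, hg⟩, trivial⟩
      rw [h, hf] at h1
      simp only [Finset.mem_filter] at h1
      exact h1.2
    · intro h
      ext y
      rw [hf]
      simp only [Finset.mem_filter, and_congr_right_iff]
      intro _
      constructor
      · intro h1
        exact comm_trans hg h1 h.symm
      · intro h1
        exact comm_trans hx h1 h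
  have h1 : Nat.card {g : G // Pri G M n g} = S.card := by
    rw [Nat.card_eq_fintype_card, Fintype.card_subtype]
  rw [h1, Finset.card_eq_sum_card_fiberwise (f := f) (t := U.image f) (fun g hg =>
    Finset.mem_coe.mpr (Finset.mem_image_of_mem f (hSU (Finset.mem_coe.mp hg)))), Finset.mul_sum]
  have h2 : ∑ c ∈ U.image f, (U.filter (fun g => f g = c)).card ≤ Nat.card G := by
    rw [← Finset.card_eq_sum_card_fiberwise (f := f) (t := U.image f) (fun g hg =>
      Finset.mem_coe.mpr (Finset.mem_image_of_mem f (Finset.mem_coe.mp hg))),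
      Nat.card_eq_fintype_card]
    exact Finset.card_le_univ _
  refine le_trans (Finset.sum_le_sum (g := fun c => 2 * n.totient *
    (U.filter (fun g => f g = c)).card) fun c hc => ?_) ?_
  · obtain ⟨x, hx, rfl⟩ := Finset.mem_image.mp hc
    rw [hU, Finset.mem_filter] at hx
    have h3 := count_torus hn hM hx.2
    have e1 : Nat.card {g : G // Pri G M n g ∧ g * x = x * g} =
        (S.filter (fun g => f g = f x)).card := by
      rw [Nat.card_eq_fintype_card, Fintype.card_subtype, hS, Finset.filter_filter]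
      congr 1
      ext g
      simp only [Finset.mem_filter, Finset.mem_univ, true_and, and_congr_right_iff]
      intro hg
      exact (hfe g x (hg.reg hn hM) hx.2).symm
    have e2 : Nat.card {g : G // Reg G M g ∧ g * x = x * g} =
        (U.filter (fun g => f g = f x)).card := by
      rw [Nat.card_eq_fintype_card, Fintype.card_subtype, hU, Finset.filter_filter]
      congr 1
      ext g
      simp only [Finset.mem_filter, Finset.mem_univ, true_and, and_congr_right_iff]
      intro hg
      exact (hfe g x hg hx.2).symm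
    rw [e1, e2] at h3
    exact h3
  · rw [← Finset.mul_sum]
    exact Nat.mul_le_mul_left _ h2

end LemmaT

end Fermat.Agent.DSD
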