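import Fermat.Agent.DSD.Dens
import Fermat.Agent.DSD.Torus

/-!
# Closed sets of matrices, and groups with bounded eigenvalues
-/

set_option autoImplicit false
set_option linter.unusedSectionVars false
set_option linter.style.haveILetI false

noncomputable section

namespace Fermat.Agent.DSD

open Matrix

section Pow

variable {F : Type*} [Field F]

theorem sq_eq {x : Matrix (Fin 2) (Fin 2) F} {t d : F} (htr : x.trace = t) (hdet : x.det = d) :
    x * x = t • x - d • (1 : Matrix (Fin 2) (Fin 2) F) := by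
  subst htr hdet
  rw [trace_fin_two, det_fin_two]
  ext i j
  fin_cases i <;> fin_cases j <;>
    simp [Matrix.mul_apply, Fin.sum_univ_two] <;> ring

theorem trace_pow {x : Matrix (Fin 2) (Fin 2) F} {a b : F} (htr : x.trace = a + b)
    (hdet : x.det = a * b) (j : ℕ) : (x ^ j).trace = a ^ j + b ^ j ∧
      (x ^ (j + 1)).trace = a ^ (j + 1) + b ^ (j + 1) := by
  induction j with
  | zero =>
    refine ⟨?_, by rw [zero_add, pow_one, pow_one, pow_one, htr]⟩
    rw [pow_zero, pow_zero, pow_zero, trace_one, Fintype.card_fin]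
    norm_num
  | succ j ih =>
    refine ⟨ih.2, ?_⟩
    have h1 : x ^ (j + 1 + 1) = x ^ j * (x * x) := by rw [pow_succ, pow_succ, mul_assoc]
    rw [h1, sq_eq htr hdet, mul_sub, mul_smul_comm, mul_smul_comm, mul_one, ← pow_succ, trace_sub,
      trace_smul, trace_smul, ih.1, ih.2]
    simp only [smul_eq_mul]
    ring

theorem isRatio_pow [IsAlgClosed F] {x : Matrix (Fin 2) (Fin 2) F} (hx : x.det ≠ 0) {r : F}
    (h : IsRatio x r) (j : ℕ) : IsRatio (x ^ j) (r ^ j) := by
  obtain ⟨a, b, htr, hdet⟩ := exists_eig x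
  have hab : a * b ≠ 0 := hdet ▸ hx
  have ha := left_ne_zero_of_mul hab
  have hb := right_ne_zero_of_mul hab
  have h2 : (x ^ j).det = a ^ j * b ^ j := by rw [det_pow, hdet, mul_pow]
  rw [isRatio_iff (pow_ne_zero j ha) (pow_ne_zero j hb) (trace_pow htr hdet j).1 h2]
  rcases (isRatio_iff ha hb htr hdet).mp h with rfl | rfl
  · left; rw [div_pow]
  · right; rw [div_pow]

/-- two ratios are equal or inverse -/
theorem ratio_eq_or {x : Matrix (Fin 2) (Fin 2) F} {r s : F} (hr : IsRatio x r)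
    (hs : IsRatio x s) : s = r ∨ s = r⁻¹ := by
  have hr0 := (isRatio_inv hr).1
  unfold IsRatio at hr hs
  have h1 : (s - r) * (s - r⁻¹) = 0 := by
    have e : rt x = r + r⁻¹ := by
      field_simp
      linear_combination -hr
    rw [e] at hs
    field_simp at hs ⊢
    linear_combination hs
  rcases mul_eq_zero.mp h1 with h | h
  · exact Or.inl (sub_eq_zero.mp h)
  · exact Or.inr (sub_eq_zero.mp h)

end Pow

section ClosedSets

variable {F : Type*} [Field F] [IsAlgClosed F] (G : Subgroup (GL (Fin 2) F)) [Finite G]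

theorem det_GL_ne_zero (g : GL (Fin 2) F) : (g : Matrix (Fin 2) (Fin 2) F).det ≠ 0 :=
  ((Matrix.isUnit_iff_isUnit_det _).mp (Units.isUnit g)).ne_zero

theorem trace_conj (g x : GL (Fin 2) F) :
    ((g⁻¹ * x * g : GL (Fin 2) F) : Matrix (Fin 2) (Fin 2) F).trace =
      (x : Matrix (Fin 2) (Fin 2) F).trace := by
  rw [Units.val_mul, Matrix.trace_mul_comm, ← Units.val_mul]
  congr 2
  group

theorem det_conj' (g x : GL (Fin 2) F) :
    ((g⁻¹ * x * g : GL (Fin 2) F) : Matrix (Fin 2) (Fin 2) F).det =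
      (x : Matrix (Fin 2) (Fin 2) F).det := by
  rw [Units.val_mul, Matrix.det_mul_comm, ← Units.val_mul]
  congr 2
  group

theorem closed_of_ratio (Q : F → Prop)
    (hQ : ∀ (r : F) (i j : ℕ), r ≠ 0 → Q r → ((r ^ i) ^ j = r ∨ (r ^ i) ^ j = r⁻¹) → Q (r ^ i)) :
    Closed {g : G | ∃ r, IsRatio ((g : GL (Fin 2) F) : Matrix (Fin 2) (Fin 2) F) r ∧ Q r} where
  gen := by
    rintro g h he ⟨r, hr, hQr⟩
    obtain ⟨i, hi⟩ : h ∈ Submonoid.powers g := by
      rw [mem_powers_iff_mem_zpowers, ← he]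
      exact Subgroup.mem_zpowers h
    obtain ⟨j, hj⟩ : g ∈ Submonoid.powers h := by
      rw [mem_powers_iff_mem_zpowers, he]
      exact Subgroup.mem_zpowers g
    have hi' : g ^ i = h := hi
    have hj' : h ^ j = g := hj
    have h1 := isRatio_pow (det_GL_ne_zero (g : GL (Fin 2) F)) hr i
    have e1 : ((g : GL (Fin 2) F) : Matrix (Fin 2) (Fin 2) F) ^ i =
        ((h : GL (Fin 2) F) : Matrix (Fin 2) (Fin 2) F) := by
      rw [← Units.val_pow_eq_pow_val, ← Subgroup.coe_pow, hi']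
    rw [e1] at h1
    have h2 := isRatio_pow (det_GL_ne_zero (h : GL (Fin 2) F)) h1 j
    have e2 : ((h : GL (Fin 2) F) : Matrix (Fin 2) (Fin 2) F) ^ j =
        ((g : GL (Fin 2) F) : Matrix (Fin 2) (Fin 2) F) := by
      rw [← Units.val_pow_eq_pow_val, ← Subgroup.coe_pow, hj']
    rw [e2] at h2
    exact ⟨r ^ i, h1, hQ r i j (isRatio_inv hr).1 hQr (ratio_eq_or hr h2)⟩
  conj := by
    rintro g x ⟨r, hr, hQr⟩
    refine ⟨r, ?_, hQr⟩
    unfold IsRatio rt at hr ⊢
    rw [Subgroup.coe_mul, Subgroup.coe_mul, Subgroup.coe_inv, trace_conj, det_conj']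
    exact hr

theorem closed_pri {M n : ℕ} : Closed {g : G | Pri G M n g} := by
  refine closed_of_ratio G (fun r => IsPrimitiveRoot (r ^ (M / n)) n) ?_
  intro r i j hr0 h hij
  have e1 : (r ^ i) ^ (M / n) = (r ^ (M / n)) ^ i := by rw [← pow_mul, ← pow_mul, mul_comm]
  rw [e1]
  have h1 : ((r ^ (M / n)) ^ i) ^ j = r ^ (M / n) ∨ ((r ^ (M / n)) ^ i) ^ j = (r ^ (M / n))⁻¹ := by
    have e2 : ((r ^ (M / n)) ^ i) ^ j = ((r ^ i) ^ j) ^ (M / n) := by
      rw [← pow_mul, ← pow_mul, ← pow_mul, ← pow_mul]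
      congr 1
      ring
    rw [e2]
    rcases hij with hij | hij
    · left; rw [hij]
    · right; rw [hij, inv_pow]
  set y := r ^ (M / n) with hy
  refine ⟨?_, ?_⟩
  · rw [← pow_mul, mul_comm, pow_mul, h.pow_eq_one, one_pow]
  · intro l hl
    have h2 : (((y ^ i) ^ j)) ^ l = 1 := by rw [← pow_mul, mul_comm, pow_mul, hl, one_pow]
    rcases h1 with h1 | h1
    · rw [h1] at h2
      exact h.dvd_of_pow_eq_one l h2
    · rw [h1, inv_pow, inv_eq_one] at h2
      exact h.dvd_of_pow_eq_one l h2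

theorem closed_ratio_ne {B : ℕ} :
    Closed {g : G | ∃ r, IsRatio ((g : GL (Fin 2) F) : Matrix (Fin 2) (Fin 2) F) r ∧ r ^ B ≠ 1} := by
  refine closed_of_ratio G (fun r => r ^ B ≠ 1) ?_
  intro r i j hr0 h hij h1
  apply h
  have h2 : ((r ^ i) ^ j) ^ B = 1 := by
    rw [← pow_mul, mul_comm, pow_mul, h1, one_pow]
  rcases hij with hij | hij
  · rwa [hij] at h2
  · rw [hij, inv_pow, inv_eq_one] at h2
    exact h2

theorem closed_det_ne {m : ℕ} :
    Closed {g : G | ((g : GL (Fin 2) F) : Matrix (Fin 2) (Fin 2) F).det ^ m ≠ 1} where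
  gen := by
    intro g h he hg
    obtain ⟨j, hj⟩ : g ∈ Submonoid.powers h := by
      rw [mem_powers_iff_mem_zpowers, he]
      exact Subgroup.mem_zpowers g
    have hj' : h ^ j = g := hj
    intro h1
    apply hg
    rw [← hj', Subgroup.coe_pow, Units.val_pow_eq_pow_val, det_pow, ← pow_mul, mul_comm, pow_mul,
      h1, one_pow]
  conj := by
    intro g x hx
    rw [Set.mem_ofPred_eq, Subgroup.coe_mul, Subgroup.coe_mul, Subgroup.coe_inv, det_conj']
    exact hx

end ClosedSets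

section Eig

variable {F : Type*} [Field F]

theorem pow_eig {x t d : F} {B m : ℕ} (hx : x ^ 2 - t * x + d = 0) (hd : d ≠ 0)
    (h : ∀ s : F, s ^ 2 - (t ^ 2 / d - 2) * s + 1 = 0 → s ^ B = 1) (hm : d ^ m = 1) :
    x ^ (2 * B * m) = 1 := by
  have hx0 : x ≠ 0 := by
    rintro rfl
    apply hd
    linear_combination hx
  have h1 : (x ^ 2 / d) ^ B = 1 := by
    refine h _ ?_
    have e : t = x + d / x := by
      field_simp
      linear_combination -hx
    rw [e]
    field_simp
    ring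
  rw [div_pow, div_eq_one_iff_eq (pow_ne_zero _ hd), ← pow_mul] at h1
  rw [pow_mul, h1, ← pow_mul, mul_comm, pow_mul, hm, one_pow]

end Eig

end Fermat.Agent.DSD
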